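import Fermat.Agent.S36R.End.Vertical

/-!
# S36R / End, file `Roots`: step (H), `n`-th roots of `f` on the three components

`f` new and a unit of the three `W i`.  Then `N_α f = yA ^ n`, `N_β f = yB ^ n` with `yA`, `yB` units of `V 0`, `V 1`, and there are
`w, w' : FA` such that
* `h₀ := α w`        is an `n`-th root of `f` along `W 0`, normalised by `h₀ ^ q ≡ β yB`;
* `h₂ := β w'`       is an `n`-th root of `f` along `W 2`, normalised by `h₂ ^ q ≡ α yA`;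
* `h₁ := α (yA / w)`, `h₁' := β (yB / w')` are `n`-th roots of `f ^ (q-1)` along `W 1`; `h₁' ≡ λ h₁`, `λ ^ n = 1` a constant.
-/

set_option autoImplicit false

namespace Fermat.Agent.S36R

variable {O K F FA : Type*} [CommRing O] [Field K] [Field F] [Field FA] [Algebra K F] [Algebra K FA]
  [Algebra O F] {D : Lvl K F FA} {q n : ℕ}

/-- The residue fields of `W 0`, `W 1` are covered by `α FA`, those of `W 1`, `W 2` by `β FA`. -/
structure ResF (D : Lvl K F FA) : Prop where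
  al0 : ∀ z ∈ D.W 0, ∃ w : FA, Cg (D.W 0) z (D.al w)
  al1 : ∀ z ∈ D.W 1, ∃ w : FA, Cg (D.W 1) z (D.al w)
  be1 : ∀ z ∈ D.W 1, ∃ w : FA, Cg (D.W 1) z (D.be w)
  be2 : ∀ z ∈ D.W 2, ∃ w : FA, Cg (D.W 2) z (D.be w)

/-- **Leaf H-R.** abstract form: `W` the local ring of `R` at its centre, `R` covered by `φ FA` modulo `𝔪_W`.
PROOF. `z s = r`; `r ≡ φ w_r`, `s ≡ φ w_s`; `φ w_s` is a unit (`Cg.isU_right`/`isU_left`), `z = r / s ≡ φ w_r / φ w_s = φ (w_r / w_s)`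
(`Cg.div`, `map_div₀`; `r ∈ W` because `r = z s`). -/
theorem exists_cover {W : ValuationSubring F} {R : Subring F} (φ : FA →+* F)
    (hloc : ∀ z ∈ W, ∃ r s : R, W.valuation (s : F) = 1 ∧ z * s = r)
    (hres : ∀ x : R, ∃ w : FA, Cg W x (φ w)) {z : F} (hz : z ∈ W) : ∃ w : FA, Cg W z (φ w) := by
  obtain ⟨r, s, hs, hzs⟩ := hloc z hz
  obtain ⟨wr, hwr⟩ := hres r
  obtain ⟨ws, hws⟩ := hres s
  have hsU : IsU W (s : F) := hs
  have hwsU : IsU W (φ ws) := hws.isU_right hsU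
  have hrW : (r : F) ∈ W := by
    rw [← hzs]
    exact W.mul_mem _ _ hz hsU.mem
  refine ⟨wr / ws, ?_⟩
  have hz' : z = (r : F) / s := by
    rw [← hzs, mul_div_cancel_right₀ _ hsU.ne_zero]
  rw [hz', map_div₀]
  exact hwr.div hws (hwr.mem_right hrW) hwsU

/-- The roots (see the header). -/
structure Roots (D : Lvl K F FA) (q n : ℕ) (f : F) (yA yB w w' : FA) : Prop where
  NA_eq : D.NA f = yA ^ n
  NB_eq : D.NB f = yB ^ n
  yA_u : ∀ j, IsU (D.V j) yA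
  yB_u : ∀ j, IsU (D.V j) yB
  w_u : IsU (D.V 0) w
  w'_u : IsU (D.V 1) w'
  r0 : Cg (D.W 0) (D.al w ^ n) f
  r0q : Cg (D.W 0) (D.al w ^ q) (D.be yB)
  r2 : Cg (D.W 2) (D.be w' ^ n) f
  r2q : Cg (D.W 2) (D.be w' ^ q) (D.al yA)
  r1 : Cg (D.W 1) (D.al (yA / w) ^ n) (f ^ (q - 1))
  r1' : Cg (D.W 1) (D.be (yB / w') ^ n) (f ^ (q - 1))

theorem New.exists_norm_roots_aux (hG : D.Good O q) (hn : 0 < n) {g : FA} (hg : IsQPow q n g)
    (hu : ∀ j, IsU (D.V j) g) : ∃ y : FA, g = y ^ n ∧ ∀ j, IsU (D.V j) y := by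
  obtain ⟨x, y, hy, e⟩ := hg
  have h0 : ∀ j, IsU (D.V j) (g / (q : FA) ^ (0 : ℤ)) := fun j => by
    rw [zpow_zero, div_one]
    exact hu j
  obtain ⟨e₀, he₀, hu₀⟩ := dvd_of_isQPow hG 0 hy e (h0 0)
  obtain ⟨e₁, he₁, hu₁⟩ := dvd_of_isQPow hG 1 hy e (h0 1)
  have hee : e₀ = e₁ := by
    have h1 : (n : ℤ) * e₀ = n * e₁ := by linarith
    exact mul_left_cancel₀ (by exact_mod_cast hn.ne') h1
  subst hee
  refine ⟨y / (q : FA) ^ e₀, ?_, fun j => ?_⟩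
  · have hx : x = -(e₀ * n) := by linarith
    rw [e, div_pow, ← zpow_natCast ((q : FA) ^ e₀) n, ← zpow_mul, hx, zpow_neg, div_eq_mul_inv,
      mul_comm]
  · fin_cases j
    · exact hu₀
    · exact hu₁

/-- **Leaf H0.** normalisation of the roots of the norms.
PROOF. `hf.A = ⟨x, y, hy, e⟩`.  `hG.NVA0 f 0 0` (`zpow_zero`, `div_one`; `(hu 1).pow _`) : `NA f / q ^ (0+0)` unit of `V 0`;
`hG.NVA1 f 0` : `NA f / q ^ (q * 0)` unit of `V 1`.  `dvd_of_isQPow hG j hy e _` gives `e₀, e₁` with `0 = x + n e_j`,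
`y / q ^ e_j` unit of `V j`; `n > 0` so `e₀ = e₁ =: e`; `yA := y / q ^ e`; `yA ^ n = y ^ n * q ^ (-(n e)) = q ^ x y ^ n`. Same for `B`. -/
theorem New.exists_norm_roots (hG : D.Good O q) (hn : 0 < n) {f : F} (hf : New D q n f)
    (hu : ∀ i, IsU (D.W i) f) :
    ∃ yA yB : FA, D.NA f = yA ^ n ∧ D.NB f = yB ^ n ∧ (∀ j, IsU (D.V j) yA) ∧ ∀ j, IsU (D.V j) yB := by
  have hf0 : ∀ i, IsU (D.W i) (f / (q : F) ^ (0 : ℤ)) := fun i => by
    rw [zpow_zero, div_one]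
    exact hu i
  have hf1 : IsU (D.W 1) (f ^ (q - 1) / (q : F) ^ (0 : ℤ)) := by
    rw [zpow_zero, div_one]
    exact (hu 1).pow _
  have hA : ∀ j, IsU (D.V j) (D.NA f) := by
    intro j
    fin_cases j
    · have h := hG.NVA0 f 0 0 (hf0 0) hf1
      rwa [add_zero, zpow_zero, div_one] at h
    · have h := hG.NVA1 f 0 (hf0 2)
      rwa [mul_zero, zpow_zero, div_one] at h
  have hB : ∀ j, IsU (D.V j) (D.NB f) := by
    intro j
    fin_cases j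
    · have h := hG.NVB0 f 0 (hf0 0)
      rwa [mul_zero, zpow_zero, div_one] at h
    · have h := hG.NVB1 f 0 0 (hf0 2) hf1
      rwa [add_zero, zpow_zero, div_one] at h
  obtain ⟨yA, hyA, huA⟩ := New.exists_norm_roots_aux hG hn hf.A hA
  obtain ⟨yB, hyB, huB⟩ := New.exists_norm_roots_aux hG hn hf.B hB
  exact ⟨yA, yB, hyA, hyB, huA, huB⟩

/-- **Leaf H1.** abstract Bezout step (used for `W 0` and `W 2`): `f`, `g` units of `W`, `g ^ n ≡ f ^ q`, `gcd (n, q) = 1`.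
Then `h := g ^ a * f ^ b` (`a q + b n = 1`) satisfies `h ^ n ≡ f`, `h ^ q ≡ g`.
PROOF. `a, b` from `Int.isCoprime_iff_gcd_eq_one`/`Nat.Coprime` (`IsCoprime (q : ℤ) n`: `∃ a b, a * q + b * n = 1`).
`h ^ n = (g ^ n) ^ a * f ^ (b n) ≡ (f ^ q) ^ a * f ^ (b n) = f ^ (a q + b n) = f` (`Cg.zpow`, `Cg.mul_right`, `zpow_mul`, `zpow_add₀`, `zpow_natCast`);
`h ^ q = g ^ (a q) * (f ^ q) ^ b ≡ g ^ (a q) * (g ^ n) ^ b = g`. -/
theorem exists_bezout_root {W : ValuationSubring F} (hqn : n.Coprime q) {f g : F} (hf : IsU W f)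
    (hg : IsU W g) (h : Cg W (g ^ n) (f ^ q)) :
    ∃ h₀ : F, IsU W h₀ ∧ Cg W (h₀ ^ n) f ∧ Cg W (h₀ ^ q) g := by
  have hcop : IsCoprime (q : ℤ) (n : ℤ) := Nat.isCoprime_iff_coprime.mpr hqn.symm
  obtain ⟨a, b, hab⟩ := hcop
  have hf0 := hf.ne_zero
  have hg0 := hg.ne_zero
  refine ⟨g ^ a * f ^ b, (hg.zpow a).mul (hf.zpow b), ?_, ?_⟩
  · have e1 : (g ^ a * f ^ b) ^ n = (g ^ n) ^ a * f ^ (b * n) := by
      rw [mul_pow, ← zpow_natCast (g ^ a), ← zpow_mul, ← zpow_natCast (f ^ b), ← zpow_mul,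
        mul_comm a, zpow_mul, zpow_natCast]
    have e2 : (f ^ q) ^ a * f ^ (b * n) = f := by
      rw [← zpow_natCast f q, ← zpow_mul, ← zpow_add₀ hf0, mul_comm (q : ℤ) a, hab, zpow_one]
    rw [e1]
    have h1 := (h.zpow (hf.pow q) a).mul_right (hf.zpow (b * n)).mem
    rwa [e2] at h1
  · have e1 : (g ^ a * f ^ b) ^ q = g ^ (a * q) * (f ^ q) ^ b := by
      rw [mul_pow, ← zpow_natCast (g ^ a), ← zpow_mul, ← zpow_natCast (f ^ b), ← zpow_mul,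
        mul_comm b, zpow_mul f, zpow_natCast f]
    have e2 : g ^ (a * q) * (g ^ n) ^ b = g := by
      rw [← zpow_natCast g n, ← zpow_mul, ← zpow_add₀ hg0, mul_comm (n : ℤ) b, hab, zpow_one]
    rw [e1]
    have h1 := (h.symm.zpow (hg.pow n) b).mul_left (hg.zpow (a * q)).mem
    rwa [e2] at h1

/-- **Leaf H2.** the root on the middle component (abstract form, used with `(α, W 0, V 0, NRA1)` and `(β, W 2, V 1, NRB1)`).
`φ : FA → F`, `Wa` the outer component, `W1` the middle one, both restrict to `U` along `φ`;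
`hN` is `NRA1` applied to `f`.  If `N f = y ^ n` and `(φ w) ^ n ≡ f` along `Wa` then `(φ (y / w)) ^ n ≡ f ^ (q-1)` along `W1`.
PROOF. `w₂` with `f ≡ φ w₂` along `W1` (`hcov`).  `hN (w ^ n) w₂ _ _ : Cg U (y ^ n) (w ^ n * w₂ ^ (q-1))` (`map_pow`, `Cg.symm`).
`w` is a unit of `U`, so `(y / w) ^ n = y ^ n / w ^ n ≡ w₂ ^ (q-1)` (`cg_div_iff`, `div_pow`, `mul_comm`).  Apply `(cg_comap h1).1` :
`(φ (y / w)) ^ n ≡ (φ w₂) ^ (q-1) ≡ f ^ (q-1)` along `W1` (`map_pow`, `Cg.pow`). -/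
theorem middle_root {Wa W1 : ValuationSubring F} {U : ValuationSubring FA} (φ : FA →+* F)
    (h1 : W1.comap φ = U) {f : F} {y w : FA} (hf1 : IsU W1 f) (hw : IsU U w)
    (hcov : ∃ w₂ : FA, Cg W1 f (φ w₂))
    (hN : ∀ w₁ w₂ : FA, Cg Wa f (φ w₁) → Cg W1 f (φ w₂) → Cg U (y ^ n) (w₁ * w₂ ^ (q - 1)))
    (hr : Cg Wa (φ w ^ n) f) : Cg W1 (φ (y / w) ^ n) (f ^ (q - 1)) := by
  obtain ⟨w₂, hw₂⟩ := hcov
  have h2 : Cg U (y ^ n) (w ^ n * w₂ ^ (q - 1)) :=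
    hN (w ^ n) w₂ (by rw [map_pow]; exact hr.symm) hw₂
  have h3 : Cg U (w₂ ^ (q - 1)) (y ^ n / w ^ n) := by
    rw [cg_div_iff (hw.pow n), mul_comm]
    exact h2.symm
  have h4 : Cg U ((y / w) ^ n) (w₂ ^ (q - 1)) := by
    rw [div_pow]
    exact h3.symm
  have h5 := (cg_comap h1).1 h4
  rw [map_pow, map_pow] at h5
  exact h5.trans (hw₂.symm.pow hf1.mem (q - 1))

/-- **Step (H).**  (assembly of H0, H1, H2.)
PROOF. `yA, yB` from H0.  `β yB` is a unit of `W 0` (`(isU_comap hG.be0).1`), `(β yB) ^ n = β (NB f) ≡ f ^ q` (`hG.NRB2 f`, `map_pow`): H1 gives `h₀`;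
`w` with `h₀ ≡ α w` (`hR.al0`); `α w` is a unit of `W 0`, so `w` is a unit of `V 0` (`isU_comap hG.al0`); `r0`, `r0q` by `Cg.pow` + `Cg.trans`.
Symmetrically `α yA` unit of `W 2` (`hG.al2`), `hG.NRA2 f`, `hR.be2`, `hG.be2`.  `r1 := middle_root (D.al) hG.al1 …` with
`hN := fun w₁ w₂ h h' => by rw [← NA_eq]; exact hG.NRA1 f w₁ w₂ (hu 0).mem (hu 1).mem h h'`; `r1'` with `D.be`, `hG.be1`, `hG.NRB1`. -/
theorem New.exists_roots (hG : D.Good O q) (hR : ResF D) (hqn : n.Coprime q) (hn : 0 < n) {f : F}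
    (hf : New D q n f) (hu : ∀ i, IsU (D.W i) f) : ∃ yA yB w w' : FA, Roots D q n f yA yB w w' := by
  obtain ⟨yA, yB, hA, hB, hyA, hyB⟩ := hf.exists_norm_roots hG hn hu
  -- the component `W 0`
  have hbe0 : IsU (D.W 0) (D.be yB) := (isU_comap (φ := (D.be : FA →+* F)) hG.be0).1 (hyB 0)
  have h0 : Cg (D.W 0) (D.be yB ^ n) (f ^ q) := by
    have := hG.NRB2 f (hu 0).mem
    rwa [hB, map_pow] at this
  obtain ⟨h₀, hh₀, hh₀n, hh₀q⟩ := exists_bezout_root hqn (hu 0) hbe0 h0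
  obtain ⟨w, hw⟩ := hR.al0 h₀ hh₀.mem
  have hwu : IsU (D.W 0) (D.al w) := hw.isU_right hh₀
  have hwV : IsU (D.V 0) w := (isU_comap (φ := (D.al : FA →+* F)) hG.al0).2 hwu
  have r0 : Cg (D.W 0) (D.al w ^ n) f := (hw.symm.pow hh₀.mem n).trans hh₀n
  have r0q : Cg (D.W 0) (D.al w ^ q) (D.be yB) := (hw.symm.pow hh₀.mem q).trans hh₀q
  -- the component `W 2`
  have hal2 : IsU (D.W 2) (D.al yA) := (isU_comap (φ := (D.al : FA →+* F)) hG.al2).1 (hyA 1)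
  have h2 : Cg (D.W 2) (D.al yA ^ n) (f ^ q) := by
    have := hG.NRA2 f (hu 2).mem
    rwa [hA, map_pow] at this
  obtain ⟨h₂, hh₂, hh₂n, hh₂q⟩ := exists_bezout_root hqn (hu 2) hal2 h2
  obtain ⟨w', hw'⟩ := hR.be2 h₂ hh₂.mem
  have hwu' : IsU (D.W 2) (D.be w') := hw'.isU_right hh₂
  have hwV' : IsU (D.V 1) w' := (isU_comap (φ := (D.be : FA →+* F)) hG.be2).2 hwu'
  have r2 : Cg (D.W 2) (D.be w' ^ n) f := (hw'.symm.pow hh₂.mem n).trans hh₂n
  have r2q : Cg (D.W 2) (D.be w' ^ q) (D.al yA) := (hw'.symm.pow hh₂.mem q).trans hh₂q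
  -- the middle component
  have r1 : Cg (D.W 1) (D.al (yA / w) ^ n) (f ^ (q - 1)) :=
    middle_root (Wa := D.W 0) (W1 := D.W 1) (U := D.V 0) (D.al : FA →+* F) hG.al1 (hu 1) hwV
      (hR.al1 f (hu 1).mem)
      (fun w₁ w₂ h h' => by rw [← hA]; exact hG.NRA1 f w₁ w₂ (hu 0).mem (hu 1).mem h h') r0
  have r1' : Cg (D.W 1) (D.be (yB / w') ^ n) (f ^ (q - 1)) :=
    middle_root (Wa := D.W 2) (W1 := D.W 1) (U := D.V 1) (D.be : FA →+* F) hG.be1 (hu 1) hwV'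
      (hR.be1 f (hu 1).mem)
      (fun w₁ w₂ h h' => by rw [← hB]; exact hG.NRB1 f w₁ w₂ (hu 2).mem (hu 1).mem h h') r2
  exact ⟨yA, yB, w, w', ⟨hA, hB, hyA, hyB, hwV, hwV', r0, r0q, r2, r2q, r1, r1'⟩⟩

/-- **Leaf H3 (ALG).** an `n`-th root of unity of the residue field of `V` is a constant.
PROOF. `z ∈ V` (`z ^ n ≡ 1` is a unit, `IsU.of_pow`).  `z ^ n - 1 = ∏_{μ ∈ nthRootsFinset n 1} (z - μ)`
(`IsPrimitiveRoot.pow_sub_pow_eq_prod_sub_mul` with `y = 1`, or `X_pow_sub_one_eq_prod` evaluated at `z`), every `μ` is `ζ' ^ l`, `ζ' = algebraMap O F ζ`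
(`IsPrimitiveRoot.eq_pow_of_mem_nthRootsFinset`/`eq_pow_of_pow_eq_one`), all factors are in `V`; if no factor had valuation `< 1` they would all be units and so
would be the product (`Finset.prod_induction`/`map_prod`). -/
theorem exists_const_root {V : ValuationSubring F} (hO : ∀ a : O, algebraMap O F a ∈ V) (hn : 0 < n)
    {ζ : O} (hζ : IsPrimitiveRoot (algebraMap O F ζ) n) {z : F} (hz : Cg V (z ^ n) 1) :
    ∃ l : ℕ, Cg V z (algebraMap O F (ζ ^ l)) := by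
  have : NeZero n := ⟨hn.ne'⟩
  have hzU : IsU V z := (hz.isU_left isU_one).of_pow hn
  by_contra hcon
  push Not at hcon
  have hprod := hζ.pow_sub_pow_eq_prod_sub_mul z 1 hn
  have hU : V.valuation (z ^ n - 1 ^ n) = 1 := by
    rw [hprod, map_prod]
    refine Finset.prod_eq_one fun μ hμ => ?_
    rw [mul_one]
    obtain ⟨l, -, hl⟩ := hζ.eq_pow_of_pow_eq_one ((Polynomial.mem_nthRootsFinset hn 1).1 hμ)
    have hμ' : μ = algebraMap O F (ζ ^ l) := by rw [map_pow, hl]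
    rw [hμ']
    exact isU_of_mem_of_not_lt (V.sub_mem hzU.mem (hO _)) (hcon l)
  rw [one_pow] at hU
  have h1 : V.valuation (z ^ n - 1) < 1 := hz
  rw [hU] at h1
  exact lt_irrefl _ h1

/-- **Leaf H4.** the two roots on the middle component differ by a constant root of unity.
PROOF. `h₁ := α (yA / w)`, `h₁' := β (yB / w')`; `h₁ ^ n ≡ f ^ (q-1)` is a unit so `h₁`, `h₁'` are units of `W 1` (`Cg.isU_left`, `IsU.of_pow`);
`(h₁' / h₁) ^ n ≡ 1` (`div_pow`, `Cg.div`, `div_self`); `exists_const_root`; multiply by `h₁` (`cg_div_iff`). -/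
theorem Roots.exists_lambda (hO : ∀ a : O, algebraMap O F a ∈ D.W 1) (hn : 0 < n) {ζ : O}
    (hζ : IsPrimitiveRoot (algebraMap O F ζ) n) {f : F} (hu : IsU (D.W 1) f) {yA yB w w' : FA}
    (h : Roots D q n f yA yB w w') :
    ∃ l : ℕ, Cg (D.W 1) (D.be (yB / w')) (algebraMap O F (ζ ^ l) * D.al (yA / w)) := by
  have hfU : IsU (D.W 1) (f ^ (q - 1)) := hu.pow _
  have h1U : IsU (D.W 1) (D.al (yA / w)) := (h.r1.isU_left hfU).of_pow hn
  have h2 : Cg (D.W 1) ((D.be (yB / w') / D.al (yA / w)) ^ n) 1 := by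
    rw [div_pow]
    have h3 := h.r1'.div h.r1 hfU.mem hfU
    rwa [div_self hfU.ne_zero] at h3
  obtain ⟨l, hl⟩ := exists_const_root hO hn hζ h2
  refine ⟨l, ?_⟩
  have h4 := hl.mul_right h1U.mem
  rwa [div_mul_cancel₀ _ h1U.ne_zero] at h4

end Fermat.Agent.S36R
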