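import Fermat.Agent.S36R.Contracts

/-!
# S36R / End, file `Cong`: calculus of `IsU V x` (unit of `V`) and `Cg V x y` (`x ≡ y` mod `𝔪_V`)
-/

set_option autoImplicit false

namespace Fermat.Agent.S36R

variable {F : Type*} [Field F] {V : ValuationSubring F} {x y z x' y' : F}

theorem isU_one : IsU V 1 := map_one _

theorem IsU.ne_zero (h : IsU V x) : x ≠ 0 := by
  rintro rfl
  rw [IsU, map_zero] at h
  exact zero_ne_one h

theorem IsU.mul (hx : IsU V x) (hy : IsU V y) : IsU V (x * y) := by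
  rw [IsU, map_mul, hx, hy, one_mul]

theorem IsU.inv (hx : IsU V x) : IsU V x⁻¹ := by
  rw [IsU, map_inv₀, hx, inv_one]

theorem IsU.div (hx : IsU V x) (hy : IsU V y) : IsU V (x / y) := by
  rw [div_eq_mul_inv]; exact hx.mul hy.inv

theorem IsU.pow (hx : IsU V x) (n : ℕ) : IsU V (x ^ n) := by
  rw [IsU, map_pow, hx, one_pow]

theorem IsU.zpow (hx : IsU V x) (n : ℤ) : IsU V (x ^ n) := by
  rw [IsU, map_zpow₀, hx, one_zpow]

theorem IsU.mem (hx : IsU V x) : x ∈ V := (V.valuation_le_one_iff x).1 hx.le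

theorem IsU.of_pow {n : ℕ} (hn : 0 < n) (h : IsU V (x ^ n)) : IsU V x := by
  rw [IsU, map_pow] at h
  exact (pow_eq_one_iff.1 h).resolve_right hn.ne'

theorem IsU.of_mul_left (h : IsU V (x * y)) (hx : IsU V x) : IsU V y := by
  rw [IsU, map_mul, hx, one_mul] at h
  exact h

theorem IsU.of_mul_right (h : IsU V (x * y)) (hy : IsU V y) : IsU V x := by
  rw [IsU, map_mul, hy, mul_one] at h
  exact h

theorem isU_of_mem_of_not_lt (hx : x ∈ V) (h : ¬ V.valuation x < 1) : IsU V x :=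
  le_antisymm ((V.valuation_le_one_iff x).2 hx) (not_lt.1 h)

theorem Cg.refl (x : F) : Cg V x x := by
  rw [Cg, sub_self, map_zero]; exact zero_lt_one

theorem Cg.of_eq (h : x = y) : Cg V x y := h ▸ Cg.refl x

theorem Cg.symm (h : Cg V x y) : Cg V y x := by
  rw [Cg, Valuation.map_sub_swap]; exact h

theorem Cg.trans (h : Cg V x y) (h' : Cg V y z) : Cg V x z := by
  have : x - z = (x - y) + (y - z) := by ring
  rw [Cg, this]
  exact Valuation.map_add_lt _ h h'

theorem Cg.isU_left (h : Cg V x y) (hy : IsU V y) : IsU V x := by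
  have h1 : x = y + (x - y) := by ring
  rw [IsU, h1, Valuation.map_add_eq_of_lt_left _ (by rw [hy]; exact h), hy]

theorem Cg.isU_right (h : Cg V x y) (hx : IsU V x) : IsU V y := h.symm.isU_left hx

theorem Cg.mem_left (h : Cg V x y) (hy : y ∈ V) : x ∈ V := by
  have h1 : x = y + (x - y) := by ring
  rw [h1]
  exact V.add_mem _ _ hy ((V.valuation_le_one_iff _).1 (le_of_lt h))

theorem Cg.mem_right (h : Cg V x y) (hx : x ∈ V) : y ∈ V := h.symm.mem_left hx

theorem Cg.add (h : Cg V x y) (h' : Cg V x' y') : Cg V (x + x') (y + y') := by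
  have : x + x' - (y + y') = (x - y) + (x' - y') := by ring
  rw [Cg, this]
  exact Valuation.map_add_lt _ h h'

theorem Cg.neg (h : Cg V x y) : Cg V (-x) (-y) := by
  have : -x - -y = -(x - y) := by ring
  rw [Cg, this, Valuation.map_neg]; exact h

theorem Cg.sub (h : Cg V x y) (h' : Cg V x' y') : Cg V (x - x') (y - y') := by
  rw [sub_eq_add_neg, sub_eq_add_neg]; exact h.add h'.neg

theorem Cg.mul_left (h : Cg V x y) (hz : z ∈ V) : Cg V (z * x) (z * y) := by
  rw [Cg, ← mul_sub, map_mul]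
  exact lt_of_le_of_lt (mul_le_of_le_one_left' ((V.valuation_le_one_iff z).2 hz)) h

theorem Cg.mul_right (h : Cg V x y) (hz : z ∈ V) : Cg V (x * z) (y * z) := by
  rw [mul_comm x, mul_comm y]; exact h.mul_left hz

theorem Cg.mul (h : Cg V x y) (h' : Cg V x' y') (hy : y ∈ V) (hy' : y' ∈ V) :
    Cg V (x * x') (y * y') :=
  (h.mul_right (h'.mem_left hy')).trans (h'.mul_left hy)

theorem Cg.pow (h : Cg V x y) (hy : y ∈ V) (n : ℕ) : Cg V (x ^ n) (y ^ n) := by
  induction n with
  | zero => simpa using Cg.refl (V := V) (1 : F)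
  | succ n ih => rw [pow_succ, pow_succ]; exact ih.mul h (V.pow_mem hy n) hy

theorem Cg.inv (h : Cg V x y) (hy : IsU V y) : Cg V x⁻¹ y⁻¹ := by
  have hx : IsU V x := h.isU_left hy
  have h1 : x⁻¹ - y⁻¹ = (y - x) * (x⁻¹ * y⁻¹) := by
    have := hx.ne_zero
    have := hy.ne_zero
    field_simp
  rw [Cg, h1, map_mul, (hx.inv.mul hy.inv : V.valuation _ = 1), mul_one]
  exact h.symm

theorem Cg.div (h : Cg V x y) (h' : Cg V x' y') (hy : y ∈ V) (hy' : IsU V y') :
    Cg V (x / x') (y / y') := by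
  rw [div_eq_mul_inv, div_eq_mul_inv]
  exact h.mul (h'.inv hy') hy hy'.inv.mem

theorem Cg.zpow (h : Cg V x y) (hy : IsU V y) (n : ℤ) : Cg V (x ^ n) (y ^ n) := by
  cases n with
  | ofNat n => simpa using h.pow hy.mem n
  | negSucc n =>
    rw [zpow_negSucc, zpow_negSucc]
    exact (h.pow hy.mem _).inv (hy.pow _)

theorem Cg.of_mul_left (h : Cg V (z * x) (z * y)) (hz : IsU V z) : Cg V x y := by
  rw [Cg, ← mul_sub, map_mul, hz, one_mul] at h
  exact h

theorem Cg.of_mul_right (h : Cg V (x * z) (y * z)) (hz : IsU V z) : Cg V x y := by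
  rw [mul_comm x, mul_comm y] at h; exact h.of_mul_left hz

/-- `x z ≡ y` with `z` a unit iff `x ≡ y / z`. -/
theorem cg_div_iff (hz : IsU V z) : Cg V x (y / z) ↔ Cg V (x * z) y := by
  have hz0 := hz.ne_zero
  constructor
  · intro h
    have := h.mul_right hz.mem
    rwa [div_mul_cancel₀ _ hz0] at this
  · intro h
    apply Cg.of_mul_right (z := z) _ hz
    rwa [div_mul_cancel₀ _ hz0]

/-! ### restriction along a field homomorphism -/

section comap

variable {FA : Type*} [Field FA] {W : ValuationSubring F} {U : ValuationSubring FA} {φ : FA →+* F}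
  {a b : FA}

theorem mem_of_comap (h : W.comap φ = U) : a ∈ U ↔ φ a ∈ W := by
  rw [← h]; exact ValuationSubring.mem_comap

theorem lt_one_iff_inv_not_mem {G : Type*} [Field G] (Z : ValuationSubring G) {g : G}
    (hg : g ≠ 0) : Z.valuation g < 1 ↔ g⁻¹ ∉ Z := by
  rw [← ValuationSubring.valuation_le_one_iff, map_inv₀, not_le,
    one_lt_inv₀ ((Valuation.pos_iff _).2 hg)]

theorem lt_one_of_comap (h : W.comap φ = U) : U.valuation a < 1 ↔ W.valuation (φ a) < 1 := by
  by_cases ha : a = 0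
  · subst ha; simp
  · have hφ : φ a ≠ 0 := (map_ne_zero φ).2 ha
    rw [lt_one_iff_inv_not_mem U ha, lt_one_iff_inv_not_mem W hφ, mem_of_comap h, map_inv₀]

theorem cg_comap (h : W.comap φ = U) : Cg U a b ↔ Cg W (φ a) (φ b) := by
  rw [Cg, Cg, lt_one_of_comap h, map_sub]

theorem isU_comap (h : W.comap φ = U) : IsU U a ↔ IsU W (φ a) := by
  constructor
  · intro ha
    exact isU_of_mem_of_not_lt ((mem_of_comap h).1 ha.mem)
      (fun h1 => by
        have := (lt_one_of_comap h).2 h1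
        rw [ha] at this
        exact lt_irrefl _ this)
  · intro ha
    exact isU_of_mem_of_not_lt ((mem_of_comap h).2 ha.mem)
      (fun h1 => by
        have := (lt_one_of_comap h).1 h1
        rw [ha] at this
        exact lt_irrefl _ this)

end comap

/-- uniqueness of the exponent. -/
theorem zpow_unique {ϖ : F} (hϖ : V.valuation ϖ < 1) (hϖ0 : ϖ ≠ 0) {a b : ℤ}
    (ha : IsU V (x / ϖ ^ a)) (hb : IsU V (x / ϖ ^ b)) : a = b := by
  have hx : x ≠ 0 := by
    rintro rfl
    rw [zero_div] at ha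
    exact ha.ne_zero rfl
  have h1 : IsU V (ϖ ^ (b - a)) := by
    have : ϖ ^ (b - a) = (x / ϖ ^ a) / (x / ϖ ^ b) := by
      rw [zpow_sub₀ hϖ0]
      have h2 : ϖ ^ a ≠ 0 := zpow_ne_zero _ hϖ0
      have h3 : ϖ ^ b ≠ 0 := zpow_ne_zero _ hϖ0
      field_simp
    rw [this]
    exact ha.div hb
  by_contra hab
  have key : ∀ m : ℕ, 0 < m → ¬ IsU V (ϖ ^ m) := by
    intro m hm h
    have := h.of_pow hm
    rw [IsU] at this
    rw [this] at hϖ
    exact lt_irrefl _ hϖ
  rcases lt_or_gt_of_ne hab with h | h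
  · obtain ⟨m, hm⟩ : ∃ m : ℕ, b - a = m := ⟨(b - a).toNat, by omega⟩
    rw [hm, zpow_natCast] at h1
    exact key m (by omega) h1
  · obtain ⟨m, hm⟩ : ∃ m : ℕ, a - b = m := ⟨(a - b).toNat, by omega⟩
    have h2 : IsU V (ϖ ^ (a - b)) := by
      have : ϖ ^ (a - b) = (ϖ ^ (b - a))⁻¹ := by rw [← zpow_neg]; congr 1; ring
      rw [this]; exact h1.inv
    rw [hm, zpow_natCast] at h2
    exact key m (by omega) h2

end Fermat.Agent.S36R
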