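import Fermat.Agent.S36R.End.Glue
import Fermat.Agent.S36R.Local.Value
import Fermat.Agent.S36R.Local.Factor
import Fermat.Agent.S36R.Inj.Transfer

/-!
# S36R / End, file `Final`: from the contracts to `f ^ (e * e) = a * Ψ ^ n`, `e = (q+1)(q-1)`

Assembly of (V), (H), (G), the local block (`Local.local_factor`, `Local.exists_value`, `Local.cond`) and `Inj.inj_reg_D_cusp`.
-/

set_option autoImplicit false
set_option linter.unusedSectionVars false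

namespace Fermat.Agent.S36R

open AlgebraicCurve

attribute [local instance] Ideal.Quotient.field

variable {O K F FA : Type*} [CommRing O] [Field K] [Field F] [Field FA] [Algebra K F] [Algebra K FA]
  [Algebra O F] [Algebra O K] [IsScalarTower O K F] {D : Lvl K F FA} {q n : ℕ} {c : F}
  {R : Subring F}

/-- a branch in the sense of `Inj.Thru`. -/
theorem br_of_thru (hR : D.ChartOK O q c R) {𝔫 : Ideal R} {i : Fin 3} (hi : Inj.Thru D.W 𝔫 i) :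
    Br (D.W i) 𝔫 :=
  ⟨fun x => hR.chart.le_W i x x.2, hi⟩

/-- **Leaf F1.** the hypotheses of step (G) at a triple point of `R₀`.
PROOF. `br := br_of_thru hR (hall i)`.  `intA s hs`: `s' := ⟨α (NA s), hT.intA s s.2⟩`; `α (NA s) ≡ s ^ q` along `W 2` (`hD.NRA2 s (le_W)`), so
`s' - s ^ q ∈ R` has `v_2 < 1`, hence lies in `𝔫` (`hall 2`); `s ^ q ∉ 𝔫` (`Ideal.IsPrime.mem_of_pow_mem`), so `s' ∉ 𝔫`.  `intB`: `hD.NRB2`, `hall 0`.
`resA := hT.resA 1 (by decide)`, `resB := hT.resB 1 (by decide)`.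
`root z s t hs ht e`: `(z s) ^ n = t s ^ (n-1) ∈ R`, so `a := z s ∈ R` (`hR.chart.root_closed`); `a ^ n = t s ^ (n-1) ∉ 𝔫` so `a ∉ 𝔫`; `b := s`.
`value := fun i z s t hs ht h => Local.exists_value hR 𝔫 hP (hall i) hn hs ht h`. -/
theorem triplePt_of_contracts (hD : D.Good O q) (hR : D.ChartOK O q c R) (hT : D.TripleOK R)
    (hn : 0 < n) (𝔫 : Ideal R) [𝔫.IsMaximal] (hP : D.PointOK R 𝔫)
    (hall : ∀ i, Inj.Thru D.W 𝔫 i) : TriplePt D n 𝔫 := by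
  have hprime : 𝔫.IsPrime := Ideal.IsMaximal.isPrime ‹_›
  refine
    { br := fun i => br_of_thru hR (hall i)
      intA := ?_
      intB := ?_
      resA := hT.resA 1 (by decide)
      resB := hT.resB 1 (by decide)
      root := ?_
      value := fun i z s t hs ht h => Local.exists_value hR 𝔫 hP (hall i) hn hs ht h }
  · intro s hs
    refine ⟨⟨D.al (D.NA s), hT.intA s s.2⟩, fun hmem => ?_, rfl⟩
    have h1 : (⟨D.al (D.NA s), hT.intA s s.2⟩ : R) - s ^ q ∈ 𝔫 := by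
      apply hall 2
      exact hD.NRA2 s (hR.chart.le_W 2 s s.2)
    have h2 : s ^ q ∈ 𝔫 := by
      have := Ideal.sub_mem _ hmem h1
      rwa [sub_sub_cancel] at this
    exact hs (hprime.mem_of_pow_mem q h2)
  · intro s hs
    refine ⟨⟨D.be (D.NB s), hT.intB s s.2⟩, fun hmem => ?_, rfl⟩
    have h1 : (⟨D.be (D.NB s), hT.intB s s.2⟩ : R) - s ^ q ∈ 𝔫 := by
      apply hall 0
      exact hD.NRB2 s (hR.chart.le_W 0 s s.2)
    have h2 : s ^ q ∈ 𝔫 := by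
      have := Ideal.sub_mem _ hmem h1
      rwa [sub_sub_cancel] at this
    exact hs (hprime.mem_of_pow_mem q h2)
  · intro z s t hs ht e
    have hpow : (z * s) ^ n = ((t * s ^ (n - 1) : R) : F) := by
      push_cast
      rw [← e, mul_pow, mul_assoc, ← pow_succ', Nat.sub_add_cancel hn]
    have hmem : z * s ∈ R := hR.chart.root_closed _ n hn (by rw [hpow]; exact Subtype.property _)
    refine ⟨⟨z * s, hmem⟩, s, fun ha => ?_, hs, rfl⟩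
    have h1 : (⟨z * s, hmem⟩ : R) ^ n = t * s ^ (n - 1) := Subtype.ext hpow
    have h2 : t * s ^ (n - 1) ∈ 𝔫 := by
      rw [← h1]
      exact Ideal.pow_mem_of_mem _ ha n hn
    rcases hprime.mem_or_mem h2 with h3 | h3
    · exact ht h3
    · exact hs (hprime.mem_of_pow_mem _ h3)

/-- **Leaf F2.** every component passes through a closed point of the special fibre.
PROOF. `Inj.centre R (D.W i) _` is a proper ideal (`1` is a unit of `W i`), `Ideal.exists_le_maximal`; it contains `q` (`hD.q_lt i`, `Nat.cast` in `R`: `push_cast`). -/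
theorem exists_point (hD : D.Good O q) (hR : D.ChartOK O q c R) (i : Fin 3) :
    ∃ 𝔫 : Ideal R, 𝔫.IsMaximal ∧ (q : R) ∈ 𝔫 ∧ Inj.Thru D.W 𝔫 i := by
  have hne : Inj.centre R (D.W i) (fun x => hR.chart.le_W i x x.2) ≠ ⊤ := by
    rw [Ideal.ne_top_iff_one, Inj.mem_centre, ValuationSubring.mem_nonunits_iff]
    simp
  obtain ⟨𝔫, hmax, hle⟩ := Ideal.exists_le_maximal _ hne
  refine ⟨𝔫, hmax, hle ?_, fun x hx => hle ?_⟩
  · rw [Inj.mem_centre, ValuationSubring.mem_nonunits_iff]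
    have := hD.vert.pi_lt i
    rw [map_natCast] at this
    push_cast
    exact this
  · rw [Inj.mem_centre, ValuationSubring.mem_nonunits_iff]
    exact hx

/-- **Leaf F3.** abstract form of `ResF`: `W` a branch through `𝔫`, the image of `R_𝔫` in the residue field of `W` is a valuation ring (`PointOK.vr`),
`R` is covered by `φ FA`.  Then the residue field of `W` is covered by `φ FA`.
PROOF. If `v z < 1` take `w = 0` (`map_zero`, `sub_zero`).  Otherwise `z` is a unit of `W`.  `hvr z hz`: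
* `z ≡ a`, `a ∈ locAt 𝔫`: `s a = r` (`Inj.mem_locAt`), `s ∉ 𝔫` a unit of `W`; `r ≡ φ w_r`, `s ≡ φ w_s`, `z ≡ r / s ≡ φ (w_r / w_s)` (`Cg.div`, `map_div₀`).
* `z⁻¹ ≡ a`: then `a`, hence `r = s a`, are units of `W`; `z ≡ a⁻¹ = s / r ≡ φ (w_s / w_r)` (`Cg.inv`). -/
theorem cover_of_vr {W : ValuationSubring F} {𝔫 : Ideal R} [𝔫.IsPrime] (hB : Br W 𝔫) (φ : FA →+* F)
    (hvr : ∀ z ∈ W, (∃ a ∈ Inj.locAt 𝔫, Cg W z a) ∨ (∃ a ∈ Inj.locAt 𝔫, Cg W z⁻¹ a))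
    (hres : ∀ x : R, ∃ w : FA, Cg W x (φ w)) {z : F} (hz : z ∈ W) : ∃ w : FA, Cg W z (φ w) := by
  by_cases hlt : W.valuation z < 1
  · exact ⟨0, by rw [map_zero, Cg, sub_zero]; exact hlt⟩
  have hzu : IsU W z := isU_of_mem_of_not_lt hz hlt
  rcases hvr z hz with ⟨a, ha, hza⟩ | ⟨a, ha, hza⟩
  · obtain ⟨s, hs, hsa⟩ := Inj.mem_locAt.1 ha
    have hsu : IsU W (s : F) := hB.isU hs
    obtain ⟨wr, hwr⟩ := hres ⟨(s : F) * a, hsa⟩
    obtain ⟨ws, hws⟩ := hres s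
    refine ⟨wr / ws, ?_⟩
    rw [map_div₀]
    have h1 : a = ((s : F) * a) / s := by
      have := hsu.ne_zero
      field_simp
    refine hza.trans ?_
    rw [h1]
    exact Cg.div hwr hws (hwr.mem_right (hB.le ⟨(s : F) * a, hsa⟩)) (hws.isU_right hsu)
  · obtain ⟨s, hs, hsa⟩ := Inj.mem_locAt.1 ha
    have hsu : IsU W (s : F) := hB.isU hs
    have hau : IsU W a := hza.isU_right hzu.inv
    have hru : IsU W ((s : F) * a) := hsu.mul hau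
    obtain ⟨wr, hwr⟩ := hres ⟨(s : F) * a, hsa⟩
    obtain ⟨ws, hws⟩ := hres s
    refine ⟨ws / wr, ?_⟩
    rw [map_div₀]
    have h1 : z = (z⁻¹)⁻¹ := (inv_inv z).symm
    have h2 : a⁻¹ = (s : F) / ((s : F) * a) := by
      have := hsu.ne_zero
      have := hau.ne_zero
      field_simp
    have h3 : Cg W z a⁻¹ := by
      have := hza.inv hau
      rwa [inv_inv] at this
    refine h3.trans ?_
    rw [h2]
    exact Cg.div hws hwr (hws.mem_right (hB.le s)) (hwr.isU_right hru)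

/-- `ResF` from the contracts.  (`exists_point`, `cover_of_vr`, `hT.resA`, `hT.resB`.) -/
theorem resF_of_contracts (hD : D.Good O q) (hR : D.ChartOK O q c R) (hT : D.TripleOK R)
    (hP : ∀ (𝔫 : Ideal R) [𝔫.IsMaximal], (q : R) ∈ 𝔫 → D.PointOK R 𝔫) : ResF D := by
  have key : ∀ (i : Fin 3) (φ : FA →+* F), (∀ x : R, ∃ w : FA, Cg (D.W i) x (φ w)) →
      ∀ z ∈ D.W i, ∃ w : FA, Cg (D.W i) z (φ w) := by
    intro i φ hres z hz
    obtain ⟨𝔫, h𝔫, hq𝔫, hi⟩ := exists_point hD hR i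
    exact cover_of_vr (br_of_thru hR hi) φ ((hP 𝔫 hq𝔫).vr i hi) hres hz
  exact
    { al0 := key 0 D.al fun x => (hT.resA 0 (by decide) x).imp fun _ h => h.2
      al1 := key 1 D.al fun x => (hT.resA 1 (by decide) x).imp fun _ h => h.2
      be1 := key 1 D.be fun x => (hT.resB 1 (by decide) x).imp fun _ h => h.2
      be2 := key 2 D.be fun x => (hT.resB 2 (by decide) x).imp fun _ h => h.2 }

/-- **Leaf F4.** a point on exactly one component: value of `h / G`.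
PROOF. `hfac = ⟨s, t, hs, ht, e⟩`.  `(h / G) ^ n * s = h ^ n * s / G ^ n ≡ f * s / G ^ n = t` along `W` (`G` a unit: `isU_of_fac`; `Cg.mul_right`, `Cg.div`, `field_simp`).
`hval _ s t hs ht _` gives `a, b`. -/
theorem single_value {W : ValuationSubring F} {𝔫 : Ideal R} [𝔫.IsMaximal] (hB : Br W 𝔫) (hn : 0 < n)
    (hval : ∀ (z : F) (s t : R), s ∉ 𝔫 → t ∉ 𝔫 → Cg W (z ^ n * s) t →
      ∃ a b : R, a ∉ 𝔫 ∧ b ∉ 𝔫 ∧ Cg W (z * b) a)
    {f h G : F} (hf : IsU W f) (hh : Cg W (h ^ n) f)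
    (hfac : ∃ s t : R, s ∉ 𝔫 ∧ t ∉ 𝔫 ∧ f * s = G ^ n * t) :
    ∃ a b : R, a ∉ 𝔫 ∧ b ∉ 𝔫 ∧ Cg W (h / G * b) a := by
  have hG : IsU W G := isU_of_fac hB hn hf hfac
  obtain ⟨s, t, hs, ht, e⟩ := hfac
  apply hval _ s t hs ht
  have hGn : IsU W (G ^ n) := hG.pow n
  have hGn0 : G ^ n ≠ 0 := hGn.ne_zero
  have h1 : Cg W (h ^ n * s) (f * s) := hh.mul_right (hB.le s)
  rw [e] at h1
  have h2 : (h / G) ^ n * s = (G ^ n)⁻¹ * (h ^ n * s) := by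
    rw [div_pow, div_eq_mul_inv]; ring
  have h3 : (t : F) = (G ^ n)⁻¹ * (G ^ n * t) := by
    rw [← mul_assoc, inv_mul_cancel₀ hGn0, one_mul]
  rw [h2, h3]
  exact h1.mul_left hGn.inv.mem

/-- **Leaf F5.** `Inj.LocalRootAt` at a point lying on exactly one component (used at the cusps of `R₁`).
PROOF. `a, b` from `single_value` for `W i`.  `g := G * a / b`.  `f * (s * a ^ n) = g ^ n * (t * b ^ n)` (`field_simp`; `b ≠ 0` in `F` as `b ∉ 𝔫`), `s a ^ n, t b ^ n ∉ 𝔫` (prime).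
For `j` with `Thru D.W 𝔫 j`: `j = i` (`huniq`); `h - g = (G / b) * (h / G * b - a)` and `G`, `b` are units of `W i`. -/
theorem localRootAt_single (hR : D.ChartOK O q c R) (hn : 0 < n) (𝔫 : Ideal R) [𝔫.IsMaximal]
    (hP : D.PointOK R 𝔫) {i : Fin 3} (hi : Inj.Thru D.W 𝔫 i)
    (huniq : ∀ j, Inj.Thru D.W 𝔫 j → j = i) {f h G : F} (hf : IsU (D.W i) f)
    (hh : Cg (D.W i) (h ^ n) f) (hG0 : G ≠ 0)
    (hfac : ∃ s t : R, s ∉ 𝔫 ∧ t ∉ 𝔫 ∧ f * s = G ^ n * t) : Inj.LocalRootAt D.W 𝔫 n f h := by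
  have hB : Br (D.W i) 𝔫 := br_of_thru hR hi
  have hGu : IsU (D.W i) G := isU_of_fac hB hn hf hfac
  obtain ⟨a, b, ha, hb, hab⟩ := single_value hB hn
    (fun z s t hs ht h => Local.exists_value hR 𝔫 hP hi hn hs ht h) hf hh hfac
  obtain ⟨s, t, hs, ht, e⟩ := hfac
  have hb0 : (b : F) ≠ 0 := (hB.isU hb).ne_zero
  have ha0 : (a : F) ≠ 0 := (hB.isU ha).ne_zero
  have hprime : 𝔫.IsPrime := inferInstance
  refine ⟨G * a / b, div_ne_zero (mul_ne_zero hG0 ha0) hb0, ⟨s * a ^ n, t * b ^ n, ?_, ?_, ?_⟩, ?_⟩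
  · exact hprime.mul_notMem hs (fun h' => ha (hprime.mem_of_pow_mem n h'))
  · exact hprime.mul_notMem ht (fun h' => hb (hprime.mem_of_pow_mem n h'))
  · have hbn : (b : F) ^ n ≠ 0 := pow_ne_zero _ hb0
    push_cast
    rw [div_pow, mul_pow, ← mul_assoc, e, div_mul_eq_mul_div, eq_div_iff hbn]
    ring
  · intro j hj
    rw [huniq j hj]
    have h1 : h - G * a / b = (G / b) * (h / G * b - a) := by
      field_simp
    rw [h1, map_mul, (hGu.div (hB.isU hb) : (D.W i).valuation _ = 1), one_mul]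
    exact hab

/-- **Leaf F6.** form (D) from a common value.
PROOF. `c = mk e` (`Ideal.Quotient.mk_surjective`), `e ∉ 𝔫` (`mk_ne_zero_iff`).  For `i` with `Thru`: `Val.to_formD (hGu i hi) (hv i hi)`. -/
theorem formD_of_val {𝔫 : Ideal R} [𝔫.IsMaximal] {h G : F} {c₀ : R ⧸ 𝔫} (hc : c₀ ≠ 0)
    (hGu : ∀ i, Inj.Thru D.W 𝔫 i → IsU (D.W i) G)
    (hv : ∀ i, Inj.Thru D.W 𝔫 i → Val (D.W i) 𝔫 (h / G) c₀) :
    ∃ e : R, e ∉ 𝔫 ∧ ∀ i, Inj.Thru D.W 𝔫 i →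
      ∃ a b : R, b ∉ 𝔫 ∧ (D.W i).valuation (h * b - G * a) < 1 ∧ a - e * b ∈ 𝔫 := by
  obtain ⟨e, rfl⟩ := Ideal.Quotient.mk_surjective c₀
  exact ⟨e, mk_ne_zero_iff.1 hc, fun i hi => Val.to_formD (hGu i hi) (hv i hi)⟩

/-- **Leaf F7.** the Kummer condition is stable.  (`Place.ord_mul`, `ord_pow`/`ord_zpow`; `P.ord (q : F) = 0` since `(q : F) = algebraMap K F q`:
`GAL.RED.ord_algebraMap` or directly: constants and their inverses lie in `P.toValuationSubring`.) -/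
theorem kummer_stable {f φ : F} (hf : f ≠ 0) (hφ : φ ≠ 0) (hq0 : (q : F) ≠ 0)
    (hord : ∀ P : Place K F, (n : ℤ) ∣ P.ord f) (m : ℕ) (x : ℤ) (P : Place K F) :
    (n : ℤ) ∣ P.ord (f ^ m * (q : F) ^ x * φ ^ n) := by
  have hq' : P.ord (q : F) = 0 := by
    have h1 : (q : F) = algebraMap K F (q : K) := by simp
    have hqK : (q : K) ≠ 0 := by
      intro h0
      apply hq0
      rw [h1, h0, map_zero]
    have hu : IsUnit (algebraMap K P.toValuationSubring (q : K)) :=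
      (IsUnit.mk0 _ hqK).map _
    have h2 := P.ord_coe_unit hu.unit
    rwa [IsUnit.unit_spec, P.coe_algebraMap, ← h1] at h2
  rw [P.ord_mul (mul_ne_zero (pow_ne_zero _ hf) (zpow_ne_zero _ hq0)) (pow_ne_zero _ hφ),
    P.ord_mul (pow_ne_zero _ hf) (zpow_ne_zero _ hq0), P.ord_zpow, ← zpow_natCast f m,
    ← zpow_natCast φ n, P.ord_zpow, P.ord_zpow, hq', mul_zero, add_zero]
  exact dvd_add (Dvd.dvd.mul_left (hord P) _) (dvd_mul_right _ _)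

/-- **Step (Final-1).**  `f` new, unit of the `W i`, Kummer.  Then `f ^ e` satisfies the hypotheses of `Inj.inj_reg_D_cusp`.
PROOF. `hRF := resF_of_contracts hD h₀ hT hP₀`; `⟨yA, yB, w, w', hr⟩ := hf.exists_roots hD hRF hqn hn hu`; `⟨l, hl⟩ := hr.exists_lambda …`;
`lam := algebraMap O F (ζ ^ l)`, `lam ^ n = 1` (`← map_pow`, `← pow_mul`, `mul_comm`, `pow_mul`, `hζ.pow_eq_one`), `lam ∈ R₀` (`h₀.chart.algebraMap_mem`).
`HH := rootFam D q lam yA w w'`; each `HH i` is a unit of `W i` (`rootFam_pow`, `Cg.isU_left`, `IsU.of_pow`); `h` from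
`Inj.exists_residue_approx D.W hD.incomp HH _` : `h ≡ HH i`; so `h ^ n ≡ HH i ^ n ≡ f ^ e` (`Cg.pow`, `Cg.trans`).
* `LocalRootD` on `R₀`: let `𝔫` be maximal, `q ∈ 𝔫`.  `Local.cond h₀ 𝔫 (hP₀ 𝔫 _) hT.sep`.  `⟨G, hG0, hfac⟩ := Local.local_factor hD h₀ hK 𝔫 (hP₀ 𝔫 _) hn hu hord`.
  `G₃ := G ^ e`, `f ^ e * s ^ e = G₃ ^ n * t ^ e`.  `(hP₀ 𝔫 _).inc`:
  - all three: `(triplePt_of_contracts …).same_value …` gives `c₀`; `h / G₃ ≡ HH i / G₃` (`Cg.div`), `Val.congr`; `formD_of_val`.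
  - exactly one `i`: `single_value` (with `Local.exists_value`) for `f ^ e`, `h`, `G₃`; `val_of_cg`; `formD_of_val` (for `j` with `Thru`, `j = i`).
* cusps of `R₁`: `Local.local_factor hD h₁ hK 𝔫 …` for `f`, then `localRootAt_single` for `f ^ e`, `G ^ e`. -/
theorem New.exists_local_data (hq : q.Prime) (hqn : n.Coprime q) (hn : 0 < n) (hD : D.Good O q)
    {R₀ R₁ : Subring F} (h₀ : D.ChartOK O q c R₀) (h₁ : D.ChartOK O q c⁻¹ R₁) (hT : D.TripleOK R₀)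
    (hP₀ : ∀ (𝔫 : Ideal R₀) [𝔫.IsMaximal], (q : R₀) ∈ 𝔫 → D.PointOK R₀ 𝔫)
    (hP₁ : ∀ (𝔫 : Ideal R₁) [𝔫.IsMaximal], (q : R₁) ∈ 𝔫 → (∀ x : R₁, (x : F) = c⁻¹ → x ∈ 𝔫) →
      D.PointOK R₁ 𝔫 ∧ ∃! i, Inj.Thru D.W 𝔫 i)
    (hK : ∀ a : K, ∃ (k : ℕ) (u : O), (q : K) ^ k * a = algebraMap O K u)
    {ζ : O} (hζ : IsPrimitiveRoot (algebraMap O F ζ) n)
    {f : F} (hf : New D q n f) (hu : ∀ i, IsU (D.W i) f)
    (hord : ∀ P : Place K F, (n : ℤ) ∣ P.ord f) :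
    ∃ h : F, (∀ i, (D.W i).valuation (f ^ ((q + 1) * (q - 1)) - h ^ n) < 1) ∧
      Inj.LocalRootD (q : O) D.W R₀ n (f ^ ((q + 1) * (q - 1))) h ∧
      ∀ 𝔫 : Ideal R₁, 𝔫.IsMaximal → (∀ x : R₁, (x : F) = algebraMap O F (q : O) → x ∈ 𝔫) →
        (∀ x : R₁, (x : F) = c⁻¹ → x ∈ 𝔫) →
          Inj.LocalRootAt D.W 𝔫 n (f ^ ((q + 1) * (q - 1))) h := by
  classical
  have hRF := resF_of_contracts hD h₀ hT hP₀
  obtain ⟨yA, yB, w, w', hr⟩ := hf.exists_roots hD hRF hqn hn hu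
  have hO1 : ∀ a : O, algebraMap O F a ∈ D.W 1 := fun a =>
    h₀.chart.le_W 1 _ (h₀.chart.algebraMap_mem a)
  obtain ⟨l, hl⟩ := hr.exists_lambda hO1 hn hζ (hu 1)
  have hlamn : (algebraMap O F (ζ ^ l)) ^ n = 1 := by
    rw [map_pow, ← pow_mul, mul_comm, pow_mul, hζ.pow_eq_one, one_pow]
  have hlamR : algebraMap O F (ζ ^ l) ∈ R₀ := h₀.chart.algebraMap_mem _
  have hfe : ∀ i, IsU (D.W i) (f ^ ((q + 1) * (q - 1))) := fun i => (hu i).pow _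
  have hHHn : ∀ i, Cg (D.W i) (rootFam D q (algebraMap O F (ζ ^ l)) yA w w' i ^ n)
      (f ^ ((q + 1) * (q - 1))) := fun i => rootFam_pow hu hr hlamn i
  have hHHu : ∀ i, IsU (D.W i) (rootFam D q (algebraMap O F (ζ ^ l)) yA w w' i) := fun i =>
    ((hHHn i).isU_left (hfe i)).of_pow hn
  obtain ⟨h, hh⟩ := Inj.exists_residue_approx D.W hD.incomp
    (rootFam D q (algebraMap O F (ζ ^ l)) yA w w') (fun i => (hHHu i).mem)
  have hhC : ∀ i, Cg (D.W i) h (rootFam D q (algebraMap O F (ζ ^ l)) yA w w' i) := hh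
  have hhn : ∀ i, Cg (D.W i) (h ^ n) (f ^ ((q + 1) * (q - 1))) := fun i =>
    ((hhC i).pow (hHHu i).mem n).trans (hHHn i)
  -- raising a local factorisation to the power `e`
  have hpowfac : ∀ {R : Subring F} (𝔫 : Ideal R) [𝔫.IsPrime] (G : F) (m : ℕ),
      (∃ s t : R, s ∉ 𝔫 ∧ t ∉ 𝔫 ∧ f * s = G ^ n * t) →
      ∃ s t : R, s ∉ 𝔫 ∧ t ∉ 𝔫 ∧ f ^ m * s = (G ^ m) ^ n * t := by
    rintro R 𝔫 h𝔫 G m ⟨s, t, hs, ht, hfac⟩
    refine ⟨s ^ m, t ^ m, fun hc => hs (h𝔫.mem_of_pow_mem m hc),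
      fun hc => ht (h𝔫.mem_of_pow_mem m hc), ?_⟩
    push_cast
    rw [← mul_pow, hfac, mul_pow, ← pow_mul, ← pow_mul, mul_comm n m]
  refine ⟨h, fun i => (hhn i).symm, ?_, ?_⟩
  · intro 𝔫 h𝔫 hπ
    haveI := h𝔫
    have hq𝔫 : (q : R₀) ∈ 𝔫 := hπ _ (by simp)
    have hP := hP₀ 𝔫 hq𝔫
    refine ⟨Local.cond h₀ 𝔫 hP (fun i j hij => Local.sep_of_loc hD h₀ hT.loc hij), ?_⟩
    obtain ⟨G, hG0, hfac⟩ := Local.local_factor hD h₀ hK 𝔫 hP hn hu hord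
    have hfac' := hpowfac 𝔫 G ((q + 1) * (q - 1)) hfac
    refine ⟨G ^ ((q + 1) * (q - 1)), pow_ne_zero _ hG0, hfac', ?_⟩
    rcases hP.inc with ⟨i, hi, huniq⟩ | hall
    · have hB := br_of_thru h₀ hi
      obtain ⟨a, b, ha, hb, hab⟩ := single_value hB hn
        (fun z s t hs ht hz => Local.exists_value h₀ 𝔫 hP hi hn hs ht hz) (hfe i) (hhn i) hfac'
      obtain ⟨c₀, hc₀, hval⟩ := val_of_cg ha hb hab
      apply formD_of_val hc₀
      · intro j hj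
        obtain rfl := huniq j hj
        exact isU_of_fac hB hn (hfe _) hfac'
      · intro j hj
        obtain rfl := huniq j hj
        exact hval
    · have hTP := triplePt_of_contracts hD h₀ hT hn 𝔫 hP hall
      obtain ⟨c₀, hc₀, hval⟩ := hTP.same_value hD hRF hq.two_le hn hu hr hlamR hlamn hl hG0 hfac
      apply formD_of_val hc₀
      · intro i _
        exact isU_of_fac (hTP.br i) hn (hfe i) hfac'
      · intro i _
        have hGu := isU_of_fac (hTP.br i) hn (hfe i) hfac'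
        exact (hval i).congr (hTP.br i) ((hhC i).div (Cg.refl _) (hHHu i).mem hGu)
  · intro 𝔫 h𝔫 hπ hc𝔫
    haveI := h𝔫
    have hq𝔫 : (q : R₁) ∈ 𝔫 := hπ _ (by simp)
    obtain ⟨hP, i, hi, huniq⟩ := hP₁ 𝔫 hq𝔫 hc𝔫
    obtain ⟨G, hG0, hfac⟩ := Local.local_factor hD h₁ hK 𝔫 hP hn hu hord
    exact localRootAt_single h₁ hn 𝔫 hP hi huniq (hfe i) (hhn i) (pow_ne_zero _ hG0)
      (hpowfac 𝔫 G ((q + 1) * (q - 1)) hfac)

/-- **THE THEOREM OF BLOCK R-END.**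
PROOF. `⟨x, φ, hφ, hu⟩ := hf.exists_unit hD hq.two_le`; `f₂ := f ^ e * q ^ x * φ ^ n` is new (`New.mul`, `New.pow`, `new_q_zpow`, `new_pow`), Kummer (`kummer_stable`),
a unit of the `W i`.  `exists_local_data` for `f₂`; `Inj.inj_reg_D_cusp hD.vert hc h₀.chart h₁.chart sh₀ sh₁ hq hqn hD.q_lt hn hnO` (`(hu i).pow e`) gives
`Φ ≠ 0` with `Φ ^ n * (f₂ ^ e)⁻¹ ∈ R₀ ∩ R₁`; `hconst`: `= algebraMap K F a`, `a ≠ 0`.  Then
`f ^ (e * e) = algebraMap K F (a⁻¹ * q ^ (-(x e))) * (Φ / φ ^ e) ^ n` (`field_simp`; `map_mul`, `map_inv₀`, `map_zpow₀`, `map_natCast`). -/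
theorem New.main [IsNoetherianRing O] (hq : q.Prime) (hqn : n.Coprime q) (hn : 0 < n)
    (hnO : IsUnit (n : O)) (hD : D.Good O q) (hc : c ≠ 0)
    {R₀ R₁ : Subring F} (h₀ : D.ChartOK O q c R₀) (h₁ : D.ChartOK O q c⁻¹ R₁) (hT : D.TripleOK R₀)
    (hP₀ : ∀ (𝔫 : Ideal R₀) [𝔫.IsMaximal], (q : R₀) ∈ 𝔫 → D.PointOK R₀ 𝔫)
    (hP₁ : ∀ (𝔫 : Ideal R₁) [𝔫.IsMaximal], (q : R₁) ∈ 𝔫 → (∀ x : R₁, (x : F) = c⁻¹ → x ∈ 𝔫) →
      D.PointOK R₁ 𝔫 ∧ ∃! i, Inj.Thru D.W 𝔫 i)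
    (sh₀ : ∀ z ∈ R₀, ∃ k : ℕ, c⁻¹ ^ k * z ∈ R₁) (sh₁ : ∀ z ∈ R₁, ∃ k : ℕ, c ^ k * z ∈ R₀)
    (hconst : ∀ z ∈ R₀, z ∈ R₁ → ∃ a : K, z = algebraMap K F a)
    (hK : ∀ a : K, ∃ (k : ℕ) (u : O), (q : K) ^ k * a = algebraMap O K u)
    {ζ : O} (hζ : IsPrimitiveRoot (algebraMap O F ζ) n)
    {f : F} (hf : New D q n f) (hord : ∀ P : Place K F, (n : ℤ) ∣ P.ord f) :
    ∃ (a : K) (Ψ : F), a ≠ 0 ∧ Ψ ≠ 0 ∧
      f ^ ((q + 1) * (q - 1) * ((q + 1) * (q - 1))) = algebraMap K F a * Ψ ^ n := by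
  obtain ⟨e, he⟩ : ∃ e, (q + 1) * (q - 1) = e := ⟨_, rfl⟩
  obtain ⟨x, φ, hφ, hu⟩ := hf.exists_unit hD hq.two_le
  have hQ : (q : F) ≠ 0 := hD.q_ne_zero
  have hqK : (q : K) ≠ 0 := by
    intro h0
    apply hQ
    rw [← map_natCast (algebraMap K F), h0, map_zero]
  have hnew : New D q n (f ^ ((q + 1) * (q - 1)) * (q : F) ^ x * φ ^ n) :=
    ((hf.pow _).mul hD (new_q_zpow hD x)).mul hD (new_pow hφ)
  have hord₂ : ∀ P : Place K F, (n : ℤ) ∣ P.ord (f ^ ((q + 1) * (q - 1)) * (q : F) ^ x * φ ^ n) :=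
    fun P => kummer_stable hf.ne_zero hφ hQ hord _ x P
  obtain ⟨h, hh, loc₀, cusp⟩ :=
    New.exists_local_data hq hqn hn hD h₀ h₁ hT hP₀ hP₁ hK hζ hnew hu hord₂
  obtain ⟨Φ, hΦ, hΦ₀, hΦ₁⟩ := Inj.inj_reg_D_cusp hD.vert hc h₀.chart h₁.chart sh₀ sh₁ hq hqn
    hD.q_lt hn hnO (fun i => (hu i).pow _) hh loc₀ cusp
  obtain ⟨a, ha⟩ := hconst _ hΦ₀ hΦ₁
  have hf₂0 := hnew.ne_zero
  rw [he] at ha hf₂0 ⊢
  have ha0 : a ≠ 0 := by
    rintro rfl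
    rw [map_zero] at ha
    exact mul_ne_zero (pow_ne_zero _ hΦ) (inv_ne_zero (pow_ne_zero _ hf₂0)) ha
  refine ⟨a⁻¹ * (q : K) ^ (-(x * e)), Φ / φ ^ e,
    mul_ne_zero (inv_ne_zero ha0) (zpow_ne_zero _ hqK), div_ne_zero hΦ (pow_ne_zero _ hφ), ?_⟩
  have hA : algebraMap K F a ≠ 0 := (map_ne_zero _).2 ha0
  have h1 : Φ ^ n = algebraMap K F a * (f ^ e * (q : F) ^ x * φ ^ n) ^ e := by
    rw [← ha, mul_assoc, inv_mul_cancel₀ (pow_ne_zero _ hf₂0), mul_one]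
  have hQx : (q : F) ^ x ≠ 0 := zpow_ne_zero _ hQ
  rw [map_mul, map_inv₀, map_zpow₀, map_natCast, div_pow, h1, mul_pow, mul_pow, ← pow_mul,
    ← pow_mul, ← pow_mul, zpow_neg, zpow_mul, zpow_natCast, mul_comm e n]
  field_simp

end Fermat.Agent.S36R
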