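import Fermat.Agent.S36R.End.Val
import Fermat.Agent.S36R.End.Roots

/-!
# S36R / End, file `Glue`: step (G), the gluing data at a triple point

`𝔫` a maximal ideal of the chart `R` through which the three components pass, `f = (t / s) G ^ n` locally at `𝔫`.
With the roots `h₀ = α w`, `h₁ = α (yA / w)`, `h₁' = β (yB / w')`, `h₂ = β w'` of `Roots.lean` and the values
`a₀ = (h₀ / G)(𝔫)` along `W 0`, `a₁ = (h₁ / G ^ (q-1))(𝔫)`, `a₁' = (h₁' / G ^ (q-1))(𝔫)` along `W 1`, `a₂ = (h₂ / G)(𝔫)` along `W 2`: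
`a₀ a₁ = a₂ ^ q` and `a₂ a₁' = a₀ ^ q`.
-/

set_option autoImplicit false
set_option linter.unusedSectionVars false

namespace Fermat.Agent.S36R

attribute [local instance] Ideal.Quotient.field

variable {O K F FA : Type*} [CommRing O] [Field K] [Field F] [Field FA] [Algebra K F] [Algebra K FA]
  [Algebra O F] {D : Lvl K F FA} {q n : ℕ} {R : Subring F}

/-- What is used at a triple point. -/
structure TriplePt (D : Lvl K F FA) (n : ℕ) (𝔫 : Ideal R) : Prop where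
  br : ∀ i, Br (D.W i) 𝔫
  intA : ∀ s : R, s ∉ 𝔫 → ∃ s' : R, s' ∉ 𝔫 ∧ (s' : F) = D.al (D.NA s)
  intB : ∀ s : R, s ∉ 𝔫 → ∃ s' : R, s' ∉ 𝔫 ∧ (s' : F) = D.be (D.NB s)
  resA : ∀ x : R, ∃ w : FA, D.al w ∈ R ∧ Cg (D.W 1) x (D.al w)
  resB : ∀ x : R, ∃ w : FA, D.be w ∈ R ∧ Cg (D.W 1) x (D.be w)
  root : ∀ (z : F) (s t : R), s ∉ 𝔫 → t ∉ 𝔫 → z ^ n * s = t → ∃ a b : R, a ∉ 𝔫 ∧ b ∉ 𝔫 ∧ z * b = a
  value : ∀ (i : Fin 3) (z : F) (s t : R), s ∉ 𝔫 → t ∉ 𝔫 → Cg (D.W i) (z ^ n * s) t →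
    ∃ a b : R, a ∉ 𝔫 ∧ b ∉ 𝔫 ∧ Cg (D.W i) (z * b) a

variable {𝔫 : Ideal R} [h𝔫 : 𝔫.IsMaximal]

/-- **Leaf G1 (abstract transport).** `φ : FA → F`, `W1`, `Wa` two branches through `𝔫` with the same restriction `U` along `φ`, `R` covered by `φ FA ∩ R`
modulo `𝔪_{W1}`.  Then for elements of `φ FA` the value along `W1` is also the value along `Wa`.
PROOF. `h = ⟨a, b, hb, hab, e⟩`.  `hres a = ⟨wa, ha', hca⟩`, `hres b = ⟨wb, hb', hcb⟩`; `a' := ⟨φ wa, ha'⟩`, `b' := ⟨φ wb, hb'⟩ : R`.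
`a - a' ∈ R` has `v_{W1} < 1`, so lies in `𝔫` (`hB1.thru`): `mk a' = mk a`, same for `b` (so `b' ∉ 𝔫`).
`φ ω ∈ W1` (`Val.mem`), so `φ (ω wb) = φ ω * b' ≡ φ ω * b ≡ a ≡ φ wa` along `W1` (`Cg.mul_left`, `Cg.trans`, `Cg.symm`);
`(cg_comap h1).2` then `(cg_comap ha).1` : `φ ω * b' ≡ a'` along `Wa`.  Answer `⟨a', b', _, _, _⟩`. -/
theorem val_transport {W1 Wa : ValuationSubring F} {U : ValuationSubring FA} (φ : FA →+* F)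
    (h1 : W1.comap φ = U) (ha : Wa.comap φ = U) (hB1 : Br W1 𝔫)
    (hres : ∀ x : R, ∃ w : FA, φ w ∈ R ∧ Cg W1 x (φ w)) {ω : FA} {c : R ⧸ 𝔫}
    (h : Val W1 𝔫 (φ ω) c) : Val Wa 𝔫 (φ ω) c := by
  have hmem : φ ω ∈ W1 := Val.mem hB1 h
  obtain ⟨a, b, hb, hab, e⟩ := h
  obtain ⟨wa, ha', hca⟩ := hres a
  obtain ⟨wb, hb', hcb⟩ := hres b
  have hda : a - ⟨φ wa, ha'⟩ ∈ 𝔫 := hB1.thru _ hca
  have hdb : b - ⟨φ wb, hb'⟩ ∈ 𝔫 := hB1.thru _ hcb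
  have ea : Ideal.Quotient.mk 𝔫 ⟨φ wa, ha'⟩ = Ideal.Quotient.mk 𝔫 a :=
    (Ideal.Quotient.eq.2 hda).symm
  have eb : Ideal.Quotient.mk 𝔫 ⟨φ wb, hb'⟩ = Ideal.Quotient.mk 𝔫 b :=
    (Ideal.Quotient.eq.2 hdb).symm
  have hb'n : (⟨φ wb, hb'⟩ : R) ∉ 𝔫 := by
    rw [← mk_ne_zero_iff, eb, mk_ne_zero_iff]
    exact hb
  refine ⟨⟨φ wa, ha'⟩, ⟨φ wb, hb'⟩, hb'n, ?_, by rw [ea, eb]; exact e⟩
  have h1' : Cg W1 (φ ω * φ wb) (φ wa) := ((hcb.symm.mul_left hmem).trans hab).trans hca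
  show Cg Wa (φ ω * φ wb) (φ wa)
  rw [← map_mul] at h1' ⊢
  exact (cg_comap ha).1 ((cg_comap h1).2 h1')

/-- **Leaf G2 (abstract unit).** `φ (y / N G)` is a unit at `𝔫`.
PROOF. Apply `N` to `f * s = G ^ n * t`: `y ^ n * N s = N G ^ n * N t` (`map_mul`, `map_pow`).  `N G ≠ 0` (`hom_ne_zero`).  So
`(φ (y / N G)) ^ n * φ (N s) = φ (N t)` (`map_div₀`, `div_pow`, `field_simp`).  `hint s hs = ⟨s', hs', es⟩`, `hint t ht = ⟨t', ht', et⟩`; `hroot _ s' t' hs' ht' _`. -/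
theorem unit_of_norm (N : F →* FA) (φ : FA →+* F)
    (hint : ∀ s : R, s ∉ 𝔫 → ∃ s' : R, s' ∉ 𝔫 ∧ (s' : F) = φ (N s))
    (hroot : ∀ (z : F) (s t : R), s ∉ 𝔫 → t ∉ 𝔫 → z ^ n * s = t →
      ∃ a b : R, a ∉ 𝔫 ∧ b ∉ 𝔫 ∧ z * b = a)
    {f G : F} {y : FA} (hG0 : G ≠ 0) (hfac : ∃ s t : R, s ∉ 𝔫 ∧ t ∉ 𝔫 ∧ f * s = G ^ n * t)
    (hN : N f = y ^ n) : ∃ a b : R, a ∉ 𝔫 ∧ b ∉ 𝔫 ∧ φ (y / N G) * b = a := by
  obtain ⟨s, t, hs, ht, e⟩ := hfac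
  obtain ⟨s', hs', es⟩ := hint s hs
  obtain ⟨t', ht', et⟩ := hint t ht
  have hNG : N G ≠ 0 := hom_ne_zero N hG0
  have e' : y ^ n * N s = N G ^ n * N t := by
    rw [← hN, ← map_mul, e, map_mul, map_pow]
  apply hroot _ s' t' hs' ht'
  rw [es, et, ← map_pow, ← map_mul]
  congr 1
  rw [div_pow, div_mul_eq_mul_div, e', mul_div_assoc, mul_comm, div_mul_cancel₀]
  exact pow_ne_zero _ hNG

/-- **Leaf G3 (the relation; abstract form, used with `(α, NA, W 0, W 2, V 0)` and `(β, NB, W 2, W 0, V 1)`).**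
Data: `φ` (`= α`), `N` (`= NA`), `Wa` (`= W 0`), `W1`, `Wb` (`= W 2`), `U = φ⁻¹ Wa = φ⁻¹ W1`; `y` (`= yA`), `w`; `hb` (`= β w'`).
PROOF. `u := φ (y / N G)`; `hunit = ⟨a, b, ha, hb, e⟩`; `υ := mk a / mk b`; `val_of_mul_eq _ hb e : Val W 𝔫 u υ` for EVERY `W`.
* along `Wb`: `u = φ y / φ (N G)` (`map_div₀`), `φ (N G) ≡ G ^ q` (`hNb`), `φ y ≡ hb ^ q` (`hq.symm`), `G` a unit: `u ≡ hb ^ q / G ^ q = (hb / G) ^ q` (`Cg.div`, `div_pow`);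
  `(h2.pow _ q).congr` and `Val.unique` : `υ = a₂ ^ q`.
* along `Wa`: `w₁, w₂` with `G ≡ φ w₁` along `Wa`, `G ≡ φ w₂` along `W1` (`hcovA`, `hcov1`); they are units of `U` (`isU_comap`).
  `hNa w₁ w₂ _ _ : Cg U (N G) (w₁ * w₂ ^ (q-1))`.  Put `ω := y / (w * w₂ ^ (q-1))`.  Then `y / N G ≡ (w / w₁) * ω` in `U` (all are units; `Cg.div`, `field_simp`), so
  `u ≡ (φ w / φ w₁) * φ ω` along `Wa` (`cg_comap`).  `φ w / φ w₁ ≡ φ w / G` along `Wa` : value `a₀`.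
  `φ ω = φ (y / w) / (φ w₂) ^ (q-1) ≡ φ (y / w) / G ^ (q-1)` along `W1` : value `a₁` along `W1`, hence along `Wa` by `val_transport`.
  So `Val Wa 𝔫 u (a₀ * a₁)`, `Val.unique` : `υ = a₀ a₁`. -/
theorem glue_relation {Wa W1 Wb : ValuationSubring F} {U : ValuationSubring FA} (φ : FA →+* F)
    (N : F →* FA) (hA : Wa.comap φ = U) (h1 : W1.comap φ = U) (hBa : Br Wa 𝔫) (hB1 : Br W1 𝔫)
    (hBb : Br Wb 𝔫) (hres : ∀ x : R, ∃ w : FA, φ w ∈ R ∧ Cg W1 x (φ w))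
    {G hb : F} {y w : FA} (hGa : IsU Wa G) (hG1 : IsU W1 G) (hGb : IsU Wb G)
    (hy : IsU U y) (hw : IsU U w)
    (hcovA : ∃ w₁ : FA, Cg Wa G (φ w₁)) (hcov1 : ∃ w₂ : FA, Cg W1 G (φ w₂))
    (hNa : ∀ w₁ w₂ : FA, Cg Wa G (φ w₁) → Cg W1 G (φ w₂) → Cg U (N G) (w₁ * w₂ ^ (q - 1)))
    (hNb : Cg Wb (φ (N G)) (G ^ q)) (hq : Cg Wb (hb ^ q) (φ y))
    (hunit : ∃ a b : R, a ∉ 𝔫 ∧ b ∉ 𝔫 ∧ φ (y / N G) * b = a)
    {a₀ a₁ a₂ : R ⧸ 𝔫} (h0 : Val Wa 𝔫 (φ w / G) a₀) (h1' : Val W1 𝔫 (φ (y / w) / G ^ (q - 1)) a₁)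
    (h2 : Val Wb 𝔫 (hb / G) a₂) : a₀ * a₁ = a₂ ^ q := by
  obtain ⟨a, b, -, hbn, e⟩ := hunit
  have hυ : ∀ W : ValuationSubring F, Val W 𝔫 (φ (y / N G))
      (Ideal.Quotient.mk 𝔫 a / Ideal.Quotient.mk 𝔫 b) := fun W => val_of_mul_eq W hbn e
  -- along `Wb`
  have hb1 : Cg Wb (φ (y / N G)) ((hb / G) ^ q) := by
    rw [map_div₀, div_pow]
    have hbq : hb ^ q ∈ Wb := by
      have := (h2.pow hBb q).mem hBb
      rw [div_pow] at this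
      have h3 : hb ^ q = hb ^ q / G ^ q * G ^ q := by
        rw [div_mul_cancel₀ _ (hGb.pow q).ne_zero]
      rw [h3]
      exact Wb.mul_mem _ _ this (hGb.pow q).mem
    exact hq.symm.div hNb hbq (hGb.pow q)
  have e2 : Ideal.Quotient.mk 𝔫 a / Ideal.Quotient.mk 𝔫 b = a₂ ^ q :=
    (hυ Wb).unique hBb ((h2.pow hBb q).congr hBb hb1)
  -- along `Wa`
  obtain ⟨w₁, hw₁⟩ := hcovA
  obtain ⟨w₂, hw₂⟩ := hcov1
  have hw₁U : IsU U w₁ := (isU_comap hA).2 (hw₁.isU_right hGa)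
  have hw₂U : IsU U w₂ := (isU_comap h1).2 (hw₂.isU_right hG1)
  have hN := hNa w₁ w₂ hw₁ hw₂
  have hw0 := hw.ne_zero
  have hw₁0 := hw₁U.ne_zero
  have hw₂0 := hw₂U.ne_zero
  have hy0 := hy.ne_zero
  have hc1 : Cg U (y / N G) ((w / w₁) * (y / (w * w₂ ^ (q - 1)))) := by
    have h3 : (w / w₁) * (y / (w * w₂ ^ (q - 1))) = y / (w₁ * w₂ ^ (q - 1)) := by
      field_simp
    rw [h3]
    exact (Cg.refl y).div hN hy.mem (hw₁U.mul (hw₂U.pow _))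
  have hc2 : Cg Wa (φ (y / N G)) ((φ w / φ w₁) * φ (y / (w * w₂ ^ (q - 1)))) := by
    have := (cg_comap hA).1 hc1
    rwa [map_mul, map_div₀ φ w w₁] at this
  have hv0 : Val Wa 𝔫 (φ w / φ w₁) a₀ :=
    h0.congr hBa ((Cg.refl (φ w)).div hw₁.symm ((isU_comap hA).1 hw).mem hGa)
  have hv1 : Val W1 𝔫 (φ (y / (w * w₂ ^ (q - 1)))) a₁ := by
    refine h1'.congr hB1 ?_
    have h3 : φ (y / (w * w₂ ^ (q - 1))) = φ (y / w) / (φ w₂) ^ (q - 1) := by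
      rw [← map_pow, ← map_div₀]
      congr 1
      field_simp
    rw [h3]
    exact (Cg.refl _).div ((hw₂.symm).pow hG1.mem _) ((isU_comap h1).1 (hy.div hw)).mem
      (hG1.pow _)
  have hv1a : Val Wa 𝔫 (φ (y / (w * w₂ ^ (q - 1)))) a₁ := val_transport φ h1 hA hB1 hres hv1
  have e1 : Ideal.Quotient.mk 𝔫 a / Ideal.Quotient.mk 𝔫 b = a₀ * a₁ :=
    (hυ Wa).unique hBa ((hv0.mul hBa hv1a).congr hBa hc2)
  rw [← e1, e2]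

/-- **Leaf G4.** `G` is a unit of the branches.  (`f s = G ^ n t`, `f`, `s`, `t` units: `IsU.of_mul_right`, `IsU.of_pow`.) -/
theorem isU_of_fac {W : ValuationSubring F} (hB : Br W 𝔫) (hn : 0 < n) {f G : F} (hf : IsU W f)
    (hfac : ∃ s t : R, s ∉ 𝔫 ∧ t ∉ 𝔫 ∧ f * s = G ^ n * t) : IsU W G := by
  obtain ⟨s, t, hs, ht, e⟩ := hfac
  have h1 : IsU W (G ^ n * t) := e ▸ hf.mul (hB.isU hs)
  exact (h1.of_mul_right (hB.isU ht)).of_pow hn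

/-- **Leaf G5 (field algebra).**  `e = (q+1)(q-1)`.
PROOF. `Λ = (a₀ / a₂) ^ (q+1)` : from `h2 / h1`.  Write `q = r + 1`; `field_simp`, then `calc`/`linear_combination`-style manipulations with `pow_succ`, `pow_mul`, `mul_pow`.
E.g. `a₀ ^ (q+1) = a₀ * a₀ ^ q = a₀ * (a₂ * (Λ * a₁)) = Λ * a₂ * (a₀ * a₁) = Λ * a₂ ^ (q+1)`; raise to the power `q - 1`.
`(Λ * a₁ ^ (q+1)) * a₀ ^ (q+1) = Λ * (a₀ a₁) ^ (q+1) = Λ * a₂ ^ (q (q+1))` and `a₀ ^ (q+1) = Λ a₂ ^ (q+1)`; cancel `Λ a₂ ^ (q+1) ≠ 0`;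
`q (q+1) = (q+1) + (q+1)(q-1)`. -/
theorem glue_algebra {κ : Type*} [Field κ] (hq : 1 ≤ q) {a₀ a₁ a₂ Λ : κ} (h0 : a₀ ≠ 0) (h2' : a₂ ≠ 0)
    (hΛ : Λ ≠ 0) (h1 : a₀ * a₁ = a₂ ^ q) (h2 : a₂ * (Λ * a₁) = a₀ ^ q) :
    (Λ ^ (q - 1))⁻¹ * a₀ ^ ((q + 1) * (q - 1)) = a₂ ^ ((q + 1) * (q - 1)) ∧
      Λ * a₁ ^ (q + 1) = a₂ ^ ((q + 1) * (q - 1)) := by
  have hA : a₀ ^ (q + 1) = Λ * a₂ ^ (q + 1) := by
    calc a₀ ^ (q + 1) = a₀ ^ q * a₀ := pow_succ _ _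
      _ = a₂ * (Λ * a₁) * a₀ := by rw [h2]
      _ = Λ * (a₂ * (a₀ * a₁)) := by ring
      _ = Λ * (a₂ * a₂ ^ q) := by rw [h1]
      _ = Λ * a₂ ^ (q + 1) := by rw [pow_succ' a₂ q]
  constructor
  · rw [pow_mul, hA, mul_pow, ← pow_mul, ← mul_assoc, inv_mul_cancel₀ (pow_ne_zero _ hΛ), one_mul]
  · have h3 : a₀ ^ (q + 1) ≠ 0 := pow_ne_zero _ h0
    apply mul_right_cancel₀ h3
    calc Λ * a₁ ^ (q + 1) * a₀ ^ (q + 1) = Λ * (a₀ * a₁) ^ (q + 1) := by rw [mul_pow]; ring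
      _ = Λ * a₂ ^ (q * (q + 1)) := by rw [h1, ← pow_mul]
      _ = Λ * a₂ ^ ((q + 1) * (q - 1) + (q + 1)) := by
          congr 2
          obtain ⟨r, rfl⟩ : ∃ r, q = r + 1 := ⟨q - 1, by omega⟩
          simp only [Nat.add_sub_cancel]
          ring
      _ = a₂ ^ ((q + 1) * (q - 1)) * (Λ * a₂ ^ (q + 1)) := by rw [pow_add]; ring
      _ = a₂ ^ ((q + 1) * (q - 1)) * a₀ ^ (q + 1) := by rw [hA]

/-- The three global roots of `f ^ ((q+1)(q-1))`. -/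
noncomputable def rootFam (D : Lvl K F FA) (q : ℕ) (lam : F) (yA w w' : FA) : Fin 3 → F :=
  ![(lam ^ (q - 1))⁻¹ * D.al w ^ ((q + 1) * (q - 1)), lam * D.al (yA / w) ^ (q + 1),
    D.be w' ^ ((q + 1) * (q - 1))]

/-- **Leaf G6.** they are roots.
PROOF. `fin_cases i`; `mul_pow`, `inv_pow`, `← pow_mul`, `mul_comm`, `hlam`: `(lam ^ (q-1)) ^ n = (lam ^ n) ^ (q-1) = 1`.
`i = 0`: `((α w) ^ e) ^ n = ((α w) ^ n) ^ e ≡ f ^ e` (`h.r0.pow (hu 0).mem e`).  `i = 2`: `h.r2`.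
`i = 1`: `((α (yA/w)) ^ (q+1)) ^ n = ((α (yA/w)) ^ n) ^ (q+1) ≡ (f ^ (q-1)) ^ (q+1) = f ^ e` (`h.r1`). -/
theorem rootFam_pow {f : F} (hu : ∀ i, IsU (D.W i) f) {yA yB w w' : FA}
    (h : Roots D q n f yA yB w w') {lam : F} (hlam : lam ^ n = 1) (i : Fin 3) :
    Cg (D.W i) (rootFam D q lam yA w w' i ^ n) (f ^ ((q + 1) * (q - 1))) := by
  have hl : (lam ^ (q - 1)) ^ n = 1 := by rw [← pow_mul, mul_comm, pow_mul, hlam, one_pow]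
  fin_cases i
  · show Cg (D.W 0) (((lam ^ (q - 1))⁻¹ * D.al w ^ ((q + 1) * (q - 1))) ^ n) _
    rw [mul_pow, inv_pow, hl, inv_one, one_mul, ← pow_mul, mul_comm, pow_mul]
    exact h.r0.pow (hu 0).mem _
  · show Cg (D.W 1) ((lam * D.al (yA / w) ^ (q + 1)) ^ n) _
    rw [mul_pow, hlam, one_mul, ← pow_mul, mul_comm (q + 1) n, pow_mul, mul_comm (q + 1) (q - 1),
      pow_mul f]
    exact h.r1.pow ((hu 1).pow _).mem _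
  · show Cg (D.W 2) ((D.be w' ^ ((q + 1) * (q - 1))) ^ n) _
    rw [← pow_mul, mul_comm, pow_mul]
    exact h.r2.pow (hu 2).mem _

/-- bookkeeping for `TriplePt.same_value`. -/
theorem TriplePt.same_value_aux {W : ValuationSubring F} {x f G s t : F} {n : ℕ} (hGU : IsU W G)
    (hsW : s ∈ W) (hx : Cg W (x ^ n) f) (e : f * s = G ^ n * t) : Cg W ((x / G) ^ n * s) t := by
  have h1 := hx.mul_right (z := s / G ^ n)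
    (by rw [div_eq_mul_inv]; exact W.mul_mem _ _ hsW (hGU.pow n).inv.mem)
  have e1 : (x / G) ^ n * s = x ^ n * (s / G ^ n) := by
    rw [div_pow]
    ring
  have e2 : f * (s / G ^ n) = t := by
    rw [← mul_div_assoc, e, mul_div_cancel_left₀ _ (pow_ne_zero _ hGU.ne_zero)]
  rw [e1]
  rwa [e2] at h1

/-- **Step (G).**  At a triple point the three roots divided by `G ^ e` have the same value.
PROOF. `G` is a unit of the `W i` (`isU_of_fac`).  Existence of the values (`hT.value` + `val_of_cg`), with `hfac = ⟨s, t, hs, ht, e⟩`: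
* `(α w / G) ^ n * s ≡ t` along `W 0`: `(α w) ^ n ≡ f` and `f * s = G ^ n * t`; gives `a₀ ≠ 0`;  same for `a₂` (`β w'`, `W 2`);
* `(α (yA / w) / G ^ (q-1)) ^ n * s ^ (q-1) ≡ t ^ (q-1)` along `W 1` (`h.r1`): `a₁ ≠ 0`.
`a₁' := Λ * a₁`, `Λ := mk ⟨lam, hlamR⟩` : `β (yB / w') / G ^ (q-1) ≡ lam * (α (yA / w) / G ^ (q-1))` (`hl`), `val_coe`, `Val.mul`, `Val.congr`.  `Λ ≠ 0` since `Λ ^ n = 1`.
`glue_relation (D.al) D.NA hG.al0 hG.al1 …` (`hNa := hG.NRA1 G`, `hNb := hG.NRA2 G`, `hq := h.r2q`, `hunit := unit_of_norm D.NA D.al hT.intA hT.root …`): `a₀ a₁ = a₂ ^ q`;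
`glue_relation (D.be) D.NB hG.be2 hG.be1 …` (roles of `W 0`, `W 2` exchanged, `hq := h.r0q`): `a₂ (Λ a₁) = a₀ ^ q`.
`glue_algebra`.  Take `c := a₂ ^ e`.  `rootFam 0 / G ^ e = (lam ^ (q-1))⁻¹ * (α w / G) ^ e`, `rootFam 1 / G ^ e = lam * (α (yA/w) / G ^ (q-1)) ^ (q+1)`,
`rootFam 2 / G ^ e = (β w' / G) ^ e` (`div_pow`, `← pow_mul`, `field_simp`); `Val.pow`, `Val.mul`, `Val.inv`, `val_coe`. -/
theorem TriplePt.same_value (hG : D.Good O q) (hR : ResF D) (hq : 2 ≤ q) (hn : 0 < n)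
    (hT : TriplePt D n 𝔫) {f G : F} (hu : ∀ i, IsU (D.W i) f) {yA yB w w' : FA}
    (h : Roots D q n f yA yB w w') {lam : F} (hlamR : lam ∈ R) (hlam : lam ^ n = 1)
    (hl : Cg (D.W 1) (D.be (yB / w')) (lam * D.al (yA / w)))
    (hG0 : G ≠ 0) (hfac : ∃ s t : R, s ∉ 𝔫 ∧ t ∉ 𝔫 ∧ f * s = G ^ n * t) :
    ∃ c : R ⧸ 𝔫, c ≠ 0 ∧
      ∀ i, Val (D.W i) 𝔫 (rootFam D q lam yA w w' i / G ^ ((q + 1) * (q - 1))) c := by
  have hGU : ∀ i, IsU (D.W i) G := fun i => isU_of_fac (hT.br i) hn (hu i) hfac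
  obtain ⟨s, t, hs, ht, e⟩ := id hfac
  -- the values
  obtain ⟨a₀, ha₀, V0⟩ : ∃ c : R ⧸ 𝔫, c ≠ 0 ∧ Val (D.W 0) 𝔫 (D.al w / G) c := by
    obtain ⟨a, b, ha, hb, hab⟩ := hT.value 0 (D.al w / G) s t hs ht
      (TriplePt.same_value_aux (hGU 0) ((hT.br 0).le s) h.r0 e)
    exact val_of_cg ha hb hab
  obtain ⟨a₂, ha₂, V2⟩ : ∃ c : R ⧸ 𝔫, c ≠ 0 ∧ Val (D.W 2) 𝔫 (D.be w' / G) c := by
    obtain ⟨a, b, ha, hb, hab⟩ := hT.value 2 (D.be w' / G) s t hs ht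
      (TriplePt.same_value_aux (hGU 2) ((hT.br 2).le s) h.r2 e)
    exact val_of_cg ha hb hab
  obtain ⟨a₁, ha₁, V1⟩ : ∃ c : R ⧸ 𝔫, c ≠ 0 ∧
      Val (D.W 1) 𝔫 (D.al (yA / w) / G ^ (q - 1)) c := by
    have e' : f ^ (q - 1) * ((s ^ (q - 1) : R) : F) = (G ^ (q - 1)) ^ n * ((t ^ (q - 1) : R) : F) := by
      rw [Subring.coe_pow, Subring.coe_pow, ← mul_pow, e, mul_pow, ← pow_mul, ← pow_mul, mul_comm n]
    obtain ⟨a, b, ha, hb, hab⟩ := hT.value 1 (D.al (yA / w) / G ^ (q - 1)) (s ^ (q - 1))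
      (t ^ (q - 1)) (fun h' => hs (h𝔫.isPrime.mem_of_pow_mem _ h'))
      (fun h' => ht (h𝔫.isPrime.mem_of_pow_mem _ h'))
      (TriplePt.same_value_aux ((hGU 1).pow _) ((hT.br 1).le _) h.r1 e')
    exact val_of_cg ha hb hab
  -- the constant
  set Λ : R ⧸ 𝔫 := Ideal.Quotient.mk 𝔫 ⟨lam, hlamR⟩ with hΛdef
  have hΛn : Λ ^ n = 1 := by
    rw [hΛdef, ← map_pow]
    have : (⟨lam, hlamR⟩ : R) ^ n = 1 := Subtype.ext (by rw [Subring.coe_pow]; exact hlam)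
    rw [this, map_one]
  have hΛ : Λ ≠ 0 := by
    intro h0
    rw [h0, zero_pow hn.ne'] at hΛn
    exact zero_ne_one hΛn
  have VΛ : ∀ i, Val (D.W i) 𝔫 lam Λ := fun i => val_coe (D.W i) (⟨lam, hlamR⟩ : R)
  have V1' : Val (D.W 1) 𝔫 (D.be (yB / w') / G ^ (q - 1)) (Λ * a₁) := by
    refine Val.congr (hT.br 1) ((VΛ 1).mul (hT.br 1) V1) ?_
    have h1 := hl.mul_right (z := (G ^ (q - 1))⁻¹) ((hGU 1).pow _).inv.mem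
    rw [← div_eq_mul_inv, ← div_eq_mul_inv, mul_div_assoc] at h1
    exact h1
  -- the two relations
  have r1 : a₀ * a₁ = a₂ ^ q :=
    glue_relation (q := q) (D.al : FA →+* F) D.NA hG.al0 hG.al1 (hT.br 0) (hT.br 1) (hT.br 2) hT.resA
      (hGU 0) (hGU 1) (hGU 2) (h.yA_u 0) h.w_u (hR.al0 G (hGU 0).mem) (hR.al1 G (hGU 1).mem)
      (fun w₁ w₂ h1 h2 => hG.NRA1 G w₁ w₂ (hGU 0).mem (hGU 1).mem h1 h2)
      (hG.NRA2 G (hGU 2).mem) h.r2q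
      (unit_of_norm D.NA (D.al : FA →+* F) hT.intA hT.root hG0 hfac h.NA_eq) V0 V1 V2
  have r2 : a₂ * (Λ * a₁) = a₀ ^ q :=
    glue_relation (q := q) (D.be : FA →+* F) D.NB hG.be2 hG.be1 (hT.br 2) (hT.br 1) (hT.br 0) hT.resB
      (hGU 2) (hGU 1) (hGU 0) (h.yB_u 1) h.w'_u (hR.be2 G (hGU 2).mem) (hR.be1 G (hGU 1).mem)
      (fun w₁ w₂ h1 h2 => hG.NRB1 G w₁ w₂ (hGU 2).mem (hGU 1).mem h1 h2)
      (hG.NRB2 G (hGU 0).mem) h.r0q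
      (unit_of_norm D.NB (D.be : FA →+* F) hT.intB hT.root hG0 hfac h.NB_eq) V2 V1' V0
  obtain ⟨g1, g2⟩ := glue_algebra (by omega : 1 ≤ q) ha₀ ha₂ hΛ r1 r2
  refine ⟨a₂ ^ ((q + 1) * (q - 1)), pow_ne_zero _ ha₂, fun i => ?_⟩
  fin_cases i
  · show Val (D.W 0) 𝔫 ((lam ^ (q - 1))⁻¹ * D.al w ^ ((q + 1) * (q - 1)) /
      G ^ ((q + 1) * (q - 1))) _
    rw [← g1, mul_div_assoc, ← div_pow]
    exact (((VΛ 0).pow (hT.br 0) _).inv (hT.br 0) (pow_ne_zero _ hΛ)).mul (hT.br 0)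
      (V0.pow (hT.br 0) _)
  · show Val (D.W 1) 𝔫 (lam * D.al (yA / w) ^ (q + 1) / G ^ ((q + 1) * (q - 1))) _
    rw [← g2, mul_div_assoc, mul_comm (q + 1) (q - 1), pow_mul, ← div_pow]
    exact (VΛ 1).mul (hT.br 1) (V1.pow (hT.br 1) _)
  · show Val (D.W 2) 𝔫 (D.be w' ^ ((q + 1) * (q - 1)) / G ^ ((q + 1) * (q - 1))) _
    rw [← div_pow]
    exact V2.pow (hT.br 2) _

end Fermat.Agent.S36R
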