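import Fermat.Agent.S36R.K0.BlockL

/-!
# S36R / End, file `K0Facts`: two facts on `K0 = Qbar ^ I_A` used by `End.abstract_X`

* `exists_zpow_mul_pow` : `K0ˣ = q ^ ℤ * (K0ˣ) ^ n` for `n` prime to `q`;
* `exists_primitiveRoot` : `K0 ∩ A` contains a primitive `n`-th root of unity.
Stated for elements of `AlgebraicClosure ℚ` (membership in the fixed field), to avoid instance problems.
-/

set_option autoImplicit false

namespace Fermat.Agent.S36R.K0L

open Fermat.Agent.PT.Local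

variable (A : ValuationSubring (AlgebraicClosure ℚ)) {q : ℕ} (hq : q.Prime)
  (hA : A.LiesOverPrime q)

include hq hA

/-- an `n`-th root (`n` prime to `q`) of a unit of `A ∩ K0` lies in `K0`. -/
theorem root_mem_fixedField {n : ℕ} (hn : ¬ q ∣ n) {u g : AlgebraicClosure ℚ}
    (hu : u ∈ IntermediateField.fixedField (A.inertiaSubgroupIn ℚ)) (hu1 : A.valuation u = 1)
    (hg : g ^ n = u) : g ∈ IntermediateField.fixedField (A.inertiaSubgroupIn ℚ) := by
  have hn0 : n ≠ 0 := by rintro rfl; exact hn (dvd_zero _)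
  have hg1 : A.valuation g = 1 := by
    have h : A.valuation g ^ n = 1 := by rw [← map_pow, hg, hu1]
    exact (pow_eq_one_iff.1 h).resolve_right hn0
  have hg0 : g ≠ 0 := by
    rintro rfl
    rw [map_zero] at hg1
    exact zero_ne_one hg1
  rw [IntermediateField.mem_fixedField_iff]
  intro σ hσ
  have hσu : σ u = u := (IntermediateField.mem_fixedField_iff _ _).1 hu σ hσ
  have h1 : (σ g / g) ^ n = 1 := by
    rw [div_pow, ← map_pow, hg, hσu, div_self]
    rw [← hg]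
    exact pow_ne_zero _ hg0
  have h2 : A.valuation (σ g / g - 1) < 1 := by
    have h3 : σ g / g - 1 = (σ g - g) / g := by field_simp
    rw [h3, map_div₀, hg1, div_one]
    exact (ValuationSubring.mem_nonunits_iff A).1
      (inertia_sub_mem_nonunits A hq hA hσ ((A.valuation_le_one_iff g).1 hg1.le))
  have h4 : σ g / g = 1 :=
    eq_of_v_sub_lt_one ⟨A, q, hq, hA⟩ hn h1 (one_pow n) h2
  rwa [div_eq_one_iff_eq hg0] at h4

/-- `K0ˣ = q ^ ℤ * (K0ˣ) ^ n`. -/
theorem exists_zpow_mul_pow {n : ℕ} (hn : ¬ q ∣ n) {a : AlgebraicClosure ℚ}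
    (ha : a ∈ IntermediateField.fixedField (A.inertiaSubgroupIn ℚ)) (ha0 : a ≠ 0) :
    ∃ (x : ℤ) (b : AlgebraicClosure ℚ), b ∈ IntermediateField.fixedField (A.inertiaSubgroupIn ℚ) ∧
      b ≠ 0 ∧ a = (q : AlgebraicClosure ℚ) ^ x * b ^ n := by
  have hn0 : n ≠ 0 := by rintro rfl; exact hn (dvd_zero _)
  obtain ⟨x, hx⟩ := exists_zpow' A hq hA ha ha0
  have hq0 : (q : AlgebraicClosure ℚ) ≠ 0 := Nat.cast_ne_zero.2 hq.ne_zero
  set u : AlgebraicClosure ℚ := a / (q : AlgebraicClosure ℚ) ^ x with hu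
  have hu1 : A.valuation u = 1 := by
    rw [hu, map_div₀, map_zpow₀, hx, div_self]
    rw [← map_zpow₀]
    exact (Valuation.ne_zero_iff _).2 (zpow_ne_zero _ hq0)
  have huK : u ∈ IntermediateField.fixedField (A.inertiaSubgroupIn ℚ) :=
    div_mem ha (zpow_mem (natCast_mem _ q) x)
  obtain ⟨g, hg⟩ := IsAlgClosed.exists_pow_nat_eq u (Nat.pos_of_ne_zero hn0)
  refine ⟨x, g, root_mem_fixedField A hq hA hn huK hu1 hg, ?_, ?_⟩
  · rintro rfl
    rw [zero_pow hn0] at hg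
    rw [← hg, map_zero] at hu1
    exact zero_ne_one hu1
  · rw [hg, hu]
    field_simp

/-- a primitive `n`-th root of unity in `A ∩ K0`. -/
theorem exists_primitiveRoot {n : ℕ} (hn : ¬ q ∣ n) :
    ∃ ζ : AlgebraicClosure ℚ, ζ ∈ IntermediateField.fixedField (A.inertiaSubgroupIn ℚ) ∧ ζ ∈ A ∧
      IsPrimitiveRoot ζ n := by
  have hn0 : n ≠ 0 := by rintro rfl; exact hn (dvd_zero _)
  have : NeZero n := ⟨hn0⟩
  have : NeZero (n : AlgebraicClosure ℚ) := ⟨Nat.cast_ne_zero.2 hn0⟩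
  obtain ⟨ζ, hζ⟩ := HasEnoughRootsOfUnity.exists_primitiveRoot (AlgebraicClosure ℚ) n
  have h1 : A.valuation ζ = 1 := by
    have h : A.valuation ζ ^ n = 1 := by rw [← map_pow, hζ.pow_eq_one, map_one]
    exact (pow_eq_one_iff.1 h).resolve_right hn0
  exact ⟨ζ, root_mem_K0 ⟨A, q, hq, hA⟩ hn hζ.pow_eq_one, (A.valuation_le_one_iff ζ).1 h1.le, hζ⟩

end Fermat.Agent.S36R.K0L
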