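import Fermat.Agent.S36R.End.Cong
import Fermat.Agent.S36R.Inj.WeakApprox

/-!
# S36R / End, file `New`: formal properties of the norms; the condition `New`

`New D q n f` : `f ≠ 0`, `N_α f = q ^ x * y ^ n`, `N_β f = q ^ x' * y' ^ n`.
It is stable under products, powers, and contains the `n`-th powers and the powers of `q`.
-/

set_option autoImplicit false

namespace Fermat.Agent.S36R

variable {O K F FA : Type*} [CommRing O] [Field K] [Field F] [Field FA] [Algebra K F] [Algebra K FA]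
  [Algebra O F]

section hom

variable (N : F →* FA) {z z' : F}

theorem hom_ne_zero (hz : z ≠ 0) : N z ≠ 0 := by
  intro h
  have h1 : N z * N z⁻¹ = 1 := by rw [← map_mul, mul_inv_cancel₀ hz, map_one]
  rw [h, zero_mul] at h1
  exact zero_ne_one h1

theorem hom_inv (hz : z ≠ 0) : N z⁻¹ = (N z)⁻¹ := by
  have h1 : N z * N z⁻¹ = 1 := by rw [← map_mul, mul_inv_cancel₀ hz, map_one]
  exact eq_inv_of_mul_eq_one_right h1

theorem hom_div (hz' : z' ≠ 0) : N (z / z') = N z / N z' := by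
  rw [div_eq_mul_inv, map_mul, hom_inv N hz', div_eq_mul_inv]

theorem hom_zpow (hz : z ≠ 0) (x : ℤ) : N (z ^ x) = N z ^ x := by
  cases x with
  | ofNat m => simp
  | negSucc m => rw [zpow_negSucc, zpow_negSucc, hom_inv N (pow_ne_zero _ hz), map_pow]

end hom

variable {D : Lvl K F FA} {q n : ℕ}

theorem Lvl.Good.q_ne_zero (hG : D.Good O q) : (q : F) ≠ 0 := by
  have := hG.vert.pi_ne
  rwa [map_natCast] at this

theorem Lvl.Good.q_ne_zero' (hG : D.Good O q) : (q : FA) ≠ 0 := by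
  intro h
  have h1 : (q : F) = D.al (q : FA) := by rw [map_natCast]
  exact hG.q_ne_zero (by rw [h1, h, map_zero])

theorem Lvl.Good.q_lt (hG : D.Good O q) (i : Fin 3) : (D.W i).valuation (q : F) < 1 := by
  have := hG.vert.pi_lt i
  rwa [map_natCast] at this

theorem Lvl.Good.NA_q (hG : D.Good O q) : D.NA (q : F) = (q : FA) ^ q := by
  have := hG.NA_const (q : K)
  rwa [map_natCast (algebraMap K F), map_pow, map_natCast (algebraMap K FA)] at this

theorem Lvl.Good.NB_q (hG : D.Good O q) : D.NB (q : F) = (q : FA) ^ q := by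
  have := hG.NB_const (q : K)
  rwa [map_natCast (algebraMap K F), map_pow, map_natCast (algebraMap K FA)] at this

/-- `N f = q ^ x * y ^ n`. -/
def IsQPow (q n : ℕ) (g : FA) : Prop := ∃ (x : ℤ) (y : FA), y ≠ 0 ∧ g = (q : FA) ^ x * y ^ n

theorem IsQPow.mul {g g' : FA} (h : IsQPow q n g) (h' : IsQPow q n g') (hq : (q : FA) ≠ 0) :
    IsQPow q n (g * g') := by
  obtain ⟨x, y, hy, rfl⟩ := h
  obtain ⟨x', y', hy', rfl⟩ := h'
  exact ⟨x + x', y * y', mul_ne_zero hy hy', by rw [zpow_add₀ hq, mul_pow]; ring⟩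

theorem IsQPow.pow {g : FA} (h : IsQPow q n g) (m : ℕ) : IsQPow q n (g ^ m) := by
  obtain ⟨x, y, hy, rfl⟩ := h
  refine ⟨x * m, y ^ m, pow_ne_zero _ hy, ?_⟩
  rw [mul_pow, zpow_mul, zpow_natCast, ← pow_mul, ← pow_mul, mul_comm n m]

/-- constants: if `Kˣ = q ^ ℤ * (Kˣ) ^ n` then (constant) * (`n`-th power) is (power of `q`) * (`n`-th power). -/
theorem isQPow_of_const
    (hKn : ∀ a : K, a ≠ 0 → ∃ (x : ℤ) (b : K), b ≠ 0 ∧ a = (q : K) ^ x * b ^ n) {g y : FA} {a : K}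
    (ha : a ≠ 0) (hy : y ≠ 0) (h : g = algebraMap K FA a * y ^ n) : IsQPow q n g := by
  obtain ⟨x, b, hb, rfl⟩ := hKn a ha
  refine ⟨x, algebraMap K FA b * y, mul_ne_zero ((map_ne_zero _).2 hb) hy, ?_⟩
  rw [h, map_mul, map_zpow₀, map_natCast, map_pow, mul_pow]
  ring

/-- `f` is "new": both norms are (power of `q`) * (`n`-th power). -/
structure New (D : Lvl K F FA) (q n : ℕ) (f : F) : Prop where
  ne_zero : f ≠ 0
  A : IsQPow q n (D.NA f)
  B : IsQPow q n (D.NB f)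

theorem New.mul (hG : D.Good O q) {f g : F} (hf : New D q n f) (hg : New D q n g) :
    New D q n (f * g) :=
  ⟨mul_ne_zero hf.ne_zero hg.ne_zero, by rw [map_mul]; exact hf.A.mul hg.A hG.q_ne_zero',
    by rw [map_mul]; exact hf.B.mul hg.B hG.q_ne_zero'⟩

theorem New.pow {f : F} (hf : New D q n f) (m : ℕ) : New D q n (f ^ m) :=
  ⟨pow_ne_zero _ hf.ne_zero, by rw [map_pow]; exact hf.A.pow m, by rw [map_pow]; exact hf.B.pow m⟩

theorem new_pow {φ : F} (hφ : φ ≠ 0) : New D q n (φ ^ n) :=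
  ⟨pow_ne_zero _ hφ, ⟨0, D.NA φ, hom_ne_zero _ hφ, by rw [map_pow, zpow_zero, one_mul]⟩,
    ⟨0, D.NB φ, hom_ne_zero _ hφ, by rw [map_pow, zpow_zero, one_mul]⟩⟩

theorem new_q_zpow (hG : D.Good O q) (x : ℤ) : New D q n ((q : F) ^ x) :=
  ⟨zpow_ne_zero _ hG.q_ne_zero,
    ⟨q * x, 1, one_ne_zero, by
      rw [hom_zpow _ hG.q_ne_zero, hG.NA_q, one_pow, mul_one, zpow_mul, zpow_natCast]⟩,
    ⟨q * x, 1, one_ne_zero, by
      rw [hom_zpow _ hG.q_ne_zero, hG.NB_q, one_pow, mul_one, zpow_mul, zpow_natCast]⟩⟩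

end Fermat.Agent.S36R
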