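import Fermat.Agent.S36R.End.Cong

/-!
# S36R / End, file `Val`: the value of a function at a closed point along a branch

`R ⊆ F` a subring, `𝔫` a maximal ideal, `κ = R ⧸ 𝔫`, `W ⊇ R` a valuation ring whose centre on `R` is contained in `𝔫`
(`Br W 𝔫`: "`W` is a branch through `𝔫`").

`Val W 𝔫 x c` : along `W` the function `x` is congruent to a fraction `a / b` (`a b : R`, `b ∉ 𝔫`) with value `c : κ` at `𝔫`.
This is a partially defined ring homomorphism; we only need its multiplicative calculus.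
-/

set_option autoImplicit false
set_option linter.unusedSectionVars false

namespace Fermat.Agent.S36R

attribute [local instance] Ideal.Quotient.field

variable {F : Type*} [Field F] {R : Subring F}

/-- `W` is a branch through `𝔫`. -/
structure Br (W : ValuationSubring F) (𝔫 : Ideal R) : Prop where
  le : ∀ x : R, (x : F) ∈ W
  thru : ∀ x : R, W.valuation (x : F) < 1 → x ∈ 𝔫

/-- the value of `x` at `𝔫` along `W` is `c`. -/
def Val (W : ValuationSubring F) (𝔫 : Ideal R) (x : F) (c : R ⧸ 𝔫) : Prop :=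
  ∃ a b : R, b ∉ 𝔫 ∧ Cg W (x * b) a ∧ Ideal.Quotient.mk 𝔫 a = c * Ideal.Quotient.mk 𝔫 b

variable {W : ValuationSubring F} {𝔫 : Ideal R}

theorem Br.isU (hB : Br W 𝔫) {b : R} (hb : b ∉ 𝔫) : IsU W (b : F) :=
  isU_of_mem_of_not_lt (hB.le b) (fun h => hb (hB.thru b h))

variable [h𝔫 : 𝔫.IsMaximal] {x x' : F} {c c' : R ⧸ 𝔫}

theorem mk_ne_zero_iff {b : R} : Ideal.Quotient.mk 𝔫 b ≠ 0 ↔ b ∉ 𝔫 := by
  rw [Ne, Ideal.Quotient.eq_zero_iff_mem]

/-- **Leaf VL1.** elements of `R`.  (`a = r`, `b = 1`.) -/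
theorem val_coe (W : ValuationSubring F) (r : R) : Val W 𝔫 (r : F) (Ideal.Quotient.mk 𝔫 r) := by
  refine ⟨r, 1, fun h => h𝔫.ne_top ((Ideal.eq_top_iff_one _).2 h), Cg.of_eq (by simp), by simp⟩

/-- **Leaf VL1.** fractions: the value does not depend on the branch.  (`a = t`, `b = s`; `div_mul_cancel₀` in `κ`, `mk_ne_zero_iff`.) -/
theorem val_of_mul_eq (W : ValuationSubring F) {s t : R} (hs : s ∉ 𝔫) (h : x * s = t) :
    Val W 𝔫 x (Ideal.Quotient.mk 𝔫 t / Ideal.Quotient.mk 𝔫 s) := by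
  exact ⟨t, s, hs, Cg.of_eq h, (div_mul_cancel₀ _ (mk_ne_zero_iff.2 hs)).symm⟩

theorem val_one (W : ValuationSubring F) : Val W 𝔫 (1 : F) (1 : R ⧸ 𝔫) := by
  simpa using val_coe (𝔫 := 𝔫) W (1 : R)

/-- **Leaf VL1.** `x ∈ W`.  (`x b ≡ a ∈ W`, `b` a unit of `W`: `x = (x b) / b`.) -/
theorem Val.mem (hB : Br W 𝔫) (h : Val W 𝔫 x c) : x ∈ W := by
  obtain ⟨a, b, hb, hab, -⟩ := h
  have hbU := hB.isU hb
  have h1 : x * b ∈ W := hab.mem_left (hB.le a)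
  have h2 : x = (x * b) * (b : F)⁻¹ := by
    rw [mul_assoc, mul_inv_cancel₀ hbU.ne_zero, mul_one]
  rw [h2]
  exact W.mul_mem _ _ h1 hbU.inv.mem

/-- **Leaf VL1.** (`x b - a = (x - x') b + (x' b - a)`.) -/
theorem Val.congr (hB : Br W 𝔫) (h : Val W 𝔫 x' c) (hx : Cg W x x') : Val W 𝔫 x c := by
  obtain ⟨a, b, hb, hab, e⟩ := h
  exact ⟨a, b, hb, (hx.mul_right (hB.le b)).trans hab, e⟩

/-- **Leaf VL2.** (`x b ≡ a`, `x b' ≡ a'` ⟹ `a b' - a' b ∈ R` has valuation `< 1`, so it lies in `𝔫`; `c = mk a / mk b = mk a' / mk b'`.) -/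
theorem Val.unique (hB : Br W 𝔫) (h : Val W 𝔫 x c) (h' : Val W 𝔫 x c') : c = c' := by
  obtain ⟨a, b, hb, hab, e⟩ := h
  obtain ⟨a', b', hb', hab', e'⟩ := h'
  have h1 : Cg W ((a : F) * b') ((a' : F) * b) := by
    have h2 : Cg W (x * b * b') ((a : F) * b') := hab.mul_right (hB.le b')
    have h3 : Cg W (x * b' * b) ((a' : F) * b) := hab'.mul_right (hB.le b)
    have h4 : x * b * b' = x * b' * b := by ring
    rw [h4] at h2
    exact h2.symm.trans h3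
  have h5 : a * b' - a' * b ∈ 𝔫 := by
    apply hB.thru
    have : ((a * b' - a' * b : R) : F) = (a : F) * b' - (a' : F) * b := by push_cast; ring
    rw [this]
    exact h1
  have h6 : Ideal.Quotient.mk 𝔫 a * Ideal.Quotient.mk 𝔫 b'
      = Ideal.Quotient.mk 𝔫 a' * Ideal.Quotient.mk 𝔫 b := by
    rw [← map_mul, ← map_mul]
    exact Ideal.Quotient.eq.2 h5
  rw [e, e'] at h6
  have hb0 := mk_ne_zero_iff.2 hb
  have hb0' := mk_ne_zero_iff.2 hb'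
  have h7 : c * (Ideal.Quotient.mk 𝔫 b * Ideal.Quotient.mk 𝔫 b')
      = c' * (Ideal.Quotient.mk 𝔫 b * Ideal.Quotient.mk 𝔫 b') := by
    linear_combination h6
  exact mul_right_cancel₀ (mul_ne_zero hb0 hb0') h7

/-- **Leaf VL2.** (`(x x') (b b') ≡ a a'`: `Cg.mul`.) -/
theorem Val.mul (hB : Br W 𝔫) (h : Val W 𝔫 x c) (h' : Val W 𝔫 x' c') : Val W 𝔫 (x * x') (c * c') := by
  obtain ⟨a, b, hb, hab, e⟩ := h
  obtain ⟨a', b', hb', hab', e'⟩ := h'
  refine ⟨a * a', b * b', fun hm => ?_, ?_, ?_⟩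
  · rcases h𝔫.isPrime.mem_or_mem hm with h1 | h1
    · exact hb h1
    · exact hb' h1
  · have h1 := hab.mul hab' (hB.le a) (hB.le a')
    have h2 : x * x' * ((b * b' : R) : F) = x * b * (x' * b') := by push_cast; ring
    rw [h2]
    simpa using h1
  · rw [map_mul, map_mul, e, e']; ring

/-- **Leaf VL2.** (`c ≠ 0` ⟹ `a ∉ 𝔫` ⟹ `a`, `b`, `x b`, `x` are units of `W`.) -/
theorem Val.isU (hB : Br W 𝔫) (h : Val W 𝔫 x c) (hc : c ≠ 0) : IsU W x := by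
  obtain ⟨a, b, hb, hab, e⟩ := h
  have ha : a ∉ 𝔫 := by
    rw [← mk_ne_zero_iff, e]
    exact mul_ne_zero hc (mk_ne_zero_iff.2 hb)
  exact (hab.isU_left (hB.isU ha)).of_mul_right (hB.isU hb)

/-- **Leaf VL2.** (`x⁻¹ a ≡ b`: `x⁻¹ a - b = - x⁻¹ (x b - a)`.) -/
theorem Val.inv (hB : Br W 𝔫) (h : Val W 𝔫 x c) (hc : c ≠ 0) : Val W 𝔫 x⁻¹ c⁻¹ := by
  have hxU := h.isU hB hc
  obtain ⟨a, b, hb, hab, e⟩ := h
  have ha : a ∉ 𝔫 := by
    rw [← mk_ne_zero_iff, e]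
    exact mul_ne_zero hc (mk_ne_zero_iff.2 hb)
  refine ⟨b, a, ha, ?_, ?_⟩
  · have h1 := (hab.mul_left hxU.inv.mem).symm
    rwa [← mul_assoc, inv_mul_cancel₀ hxU.ne_zero, one_mul] at h1
  · rw [e, ← mul_assoc, inv_mul_cancel₀ hc, one_mul]

theorem Val.div (hB : Br W 𝔫) (h : Val W 𝔫 x c) (h' : Val W 𝔫 x' c') (hc' : c' ≠ 0) :
    Val W 𝔫 (x / x') (c / c') := by
  rw [div_eq_mul_inv, div_eq_mul_inv]
  exact h.mul hB (h'.inv hB hc')

theorem Val.pow (hB : Br W 𝔫) (h : Val W 𝔫 x c) (m : ℕ) : Val W 𝔫 (x ^ m) (c ^ m) := by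
  induction m with
  | zero => simpa using val_one (𝔫 := 𝔫) W
  | succ m ih => rw [pow_succ, pow_succ]; exact ih.mul hB h

/-- **Leaf VL3.** existence of a non zero value, from fractions `a / b` with `a, b ∉ 𝔫`. -/
theorem val_of_cg {a b : R} (ha : a ∉ 𝔫) (hb : b ∉ 𝔫) (h : Cg W (x * b) a) :
    ∃ c : R ⧸ 𝔫, c ≠ 0 ∧ Val W 𝔫 x c :=
  ⟨Ideal.Quotient.mk 𝔫 a / Ideal.Quotient.mk 𝔫 b,
    div_ne_zero (mk_ne_zero_iff.2 ha) (mk_ne_zero_iff.2 hb),
    a, b, hb, h, (div_mul_cancel₀ _ (mk_ne_zero_iff.2 hb)).symm⟩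

/-- **Leaf VL3.** back to the form used by `Inj.LocalRootD`.
PROOF. `h = ⟨a, b, hb, hab, e⟩` for `x = hh / G`; `hh b - G a = G (hh / G * b - a)`, `v G = 1`; `mk (a - e b) = 0` by `e`. -/
theorem Val.to_formD {hh G : F} (hG : IsU W G) {e : R}
    (h : Val W 𝔫 (hh / G) (Ideal.Quotient.mk 𝔫 e)) :
    ∃ a b : R, b ∉ 𝔫 ∧ W.valuation (hh * b - G * a) < 1 ∧ a - e * b ∈ 𝔫 := by
  obtain ⟨a, b, hb, hab, he⟩ := h
  refine ⟨a, b, hb, ?_, ?_⟩
  · have h1 : hh * b - G * a = G * (hh / G * b - a) := by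
      have := hG.ne_zero
      field_simp
    rw [h1, map_mul, hG, one_mul]
    exact hab
  · rw [← map_mul] at he
    exact Ideal.Quotient.eq.1 he

end Fermat.Agent.S36R
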