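import Fermat.Agent.S36R.End.New

/-!
# S36R / End, file `Vertical`: step (V), the vertical exponents

If `f` is new then `f ^ ((q+1)(q-1)) * q ^ x * φ ^ n` is a unit of the three `W i` for suitable `x`, `φ`.
No modular units, no intersection numbers: only the valuations of the norms (`NVA0 … NVB0`) and weak
approximation.
-/

set_option autoImplicit false

namespace Fermat.Agent.S36R

variable {O K F FA : Type*} [CommRing O] [Field K] [Field F] [Field FA] [Algebra K F] [Algebra K FA]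
  [Algebra O F] {D : Lvl K F FA} {q n : ℕ}

omit [Field K] [Algebra K F] in
/-- abstract form of `Lvl.Good.arch`. -/
theorem Lvl.Good.arch_aux {W : ValuationSubring F} {ϖ : F} (hϖ : W.valuation ϖ < 1) (hϖ0 : ϖ ≠ 0)
    {m : ℕ} (hm : 0 < m) {z : F} {x : ℤ} (h : IsU W (z ^ m / ϖ ^ x)) :
    ∃ N : ℕ, ϖ ^ N * z ∈ W := by
  refine ⟨(-x).toNat, ?_⟩
  set N := (-x).toNat with hN
  obtain ⟨t, ht⟩ : ∃ t : ℕ, ((N * m : ℕ) : ℤ) + x = t := by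
    refine ⟨(((N * m : ℕ) : ℤ) + x).toNat, (Int.toNat_of_nonneg ?_).symm⟩
    have h1 : N ≤ N * m := Nat.le_mul_of_pos_right N hm
    have h2 : -x ≤ N := Int.self_le_toNat (-x)
    have h3 : (N : ℤ) ≤ ((N * m : ℕ) : ℤ) := by exact_mod_cast h1
    omega
  have hϖW : ϖ ∈ W := (W.valuation_le_one_iff ϖ).1 hϖ.le
  have h1 : (ϖ ^ N * z) ^ m = ϖ ^ t * (z ^ m / ϖ ^ x) := by
    rw [← zpow_natCast ϖ t, ← ht, zpow_add₀ hϖ0, zpow_natCast, mul_pow, ← pow_mul]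
    have : ϖ ^ x ≠ 0 := zpow_ne_zero _ hϖ0
    field_simp
  have h2 : (ϖ ^ N * z) ^ m ∈ W := by
    rw [h1]
    exact W.mul_mem _ _ (W.pow_mem hϖW t) h.mem
  rw [← W.valuation_le_one_iff, map_pow] at h2
  rw [← W.valuation_le_one_iff]
  exact (pow_le_one_iff hm.ne').1 h2

/-- **Leaf V0.** the hypothesis `harch` of `Inj.exists_prescribed`.
PROOF. `z = 0`: `N = 0`.  Otherwise, `i = 0, 2`: `hG.eW0 z`/`hG.eW2 z` give `x` with `u := z / q ^ x` a unit; take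
`N := (-x).toNat`; `q ^ N * z = q ^ (N + x) * u` with `N + x ≥ 0` (a natural power of `q ∈ W i`, `hG.q_lt i`).
`i = 1`: `hG.eW1` gives `x` with `u := z ^ (q-1) / q ^ x` a unit; `N := (-x).toNat`;
`(q ^ N * z) ^ (q-1) = q ^ (N (q-1) + x) * u ∈ W 1` as `N (q - 1) + x ≥ N + x ≥ 0`; conclude with root closedness of a valuation
ring (e.g. if `y ∉ W` then `v y > 1`, so `v (y ^ m) > 1`).  `algebraMap O F (q : O) = (q : F)` by `map_natCast`.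
`fin_cases i`. -/
theorem Lvl.Good.arch (hG : D.Good O q) (hq : 2 ≤ q) (i : Fin 3) (z : F) :
    ∃ N : ℕ, algebraMap O F (q : O) ^ N * z ∈ D.W i := by
  rw [map_natCast]
  by_cases hz : z = 0
  · exact ⟨0, by rw [hz, mul_zero]; exact (D.W i).zero_mem⟩
  fin_cases i
  · obtain ⟨x, hx⟩ := hG.eW0 z hz
    exact Lvl.Good.arch_aux (hG.q_lt 0) hG.q_ne_zero one_pos (x := x) (by rwa [pow_one])
  · obtain ⟨x, hx⟩ := hG.eW1 z hz
    exact Lvl.Good.arch_aux (hG.q_lt 1) hG.q_ne_zero (m := q - 1) (by omega) hx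
  · obtain ⟨x, hx⟩ := hG.eW2 z hz
    exact Lvl.Good.arch_aux (hG.q_lt 2) hG.q_ne_zero one_pos (x := x) (by rwa [pow_one])

/-- **Leaf V1.** one norm relation.  (abstract form used four times.)
If `g = q ^ x * y ^ n` in `FA` and `g / q ^ a` is a unit of `V j` then `n ∣ a - x`.
PROOF. `hG.eV j y hy` gives `e` with `y / q ^ e` a unit; then `g / q ^ (x + n e) = (y / q ^ e) ^ n` is a unit
(`zpow_add₀`, `zpow_mul`, `field_simp`); `zpow_unique (hG.qV j) hG.q_ne_zero'` gives `a = x + n e`. -/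
theorem dvd_of_isQPow (hG : D.Good O q) (j : Fin 2) {g y : FA} {x a : ℤ} (hy : y ≠ 0)
    (hg : g = (q : FA) ^ x * y ^ n) (ha : IsU (D.V j) (g / (q : FA) ^ a)) :
    ∃ e : ℤ, a = x + n * e ∧ IsU (D.V j) (y / (q : FA) ^ e) := by
  obtain ⟨e, he⟩ := hG.eV j y hy
  refine ⟨e, ?_, he⟩
  have hq0 : (q : FA) ≠ 0 := hG.q_ne_zero'
  have h1 : IsU (D.V j) (g / (q : FA) ^ (x + n * e)) := by
    have h2 : g / (q : FA) ^ (x + n * e) = (y / (q : FA) ^ e) ^ n := by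
      rw [hg, zpow_add₀ hq0, mul_comm (n : ℤ) e, zpow_mul, zpow_natCast, div_pow,
        mul_div_mul_left _ _ (zpow_ne_zero x hq0)]
    rw [h2]
    exact he.pow n
  exact zpow_unique (hG.qV j) hq0 ha h1

/-- **Leaf V2.** the two congruences between the vertical exponents of a new element.
PROOF. `hf.A = ⟨x, y, hy, e⟩`.  `hG.NVA0 f x0 x1 h0 h1 : IsU (V 0) (NA f / q ^ (x0 + x1))`,
`hG.NVA1 f x2 h2 : IsU (V 1) (NA f / q ^ (q * x2))`; `dvd_of_isQPow` twice: `x0 + x1 = x + n e₀`, `q x2 = x + n e₁`; subtract.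
Same with `hf.B`, `NVB1 f x2 x1 h2 h1`, `NVB0 f x0 h0`. -/
theorem New.dvd_exponents (hG : D.Good O q) {f : F} (hf : New D q n f) {x0 x1 x2 : ℤ}
    (h0 : IsU (D.W 0) (f / (q : F) ^ x0)) (h1 : IsU (D.W 1) (f ^ (q - 1) / (q : F) ^ x1))
    (h2 : IsU (D.W 2) (f / (q : F) ^ x2)) :
    (n : ℤ) ∣ x0 + x1 - q * x2 ∧ (n : ℤ) ∣ x2 + x1 - q * x0 := by
  obtain ⟨x, y, hy, e⟩ := hf.A
  obtain ⟨x', y', hy', e'⟩ := hf.B
  obtain ⟨e₀, he₀, -⟩ := dvd_of_isQPow hG 0 hy e (hG.NVA0 f x0 x1 h0 h1)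
  obtain ⟨e₁, he₁, -⟩ := dvd_of_isQPow hG 1 hy e (hG.NVA1 f x2 h2)
  obtain ⟨e₂, he₂, -⟩ := dvd_of_isQPow hG 1 hy' e' (hG.NVB1 f x2 x1 h2 h1)
  obtain ⟨e₃, he₃, -⟩ := dvd_of_isQPow hG 0 hy' e' (hG.NVB0 f x0 h0)
  exact ⟨⟨e₀ - e₁, by rw [he₀, he₁]; ring⟩, ⟨e₂ - e₃, by rw [he₂, he₃]; ring⟩⟩

/-- bookkeeping for `New.exists_unit`. -/
theorem New.exists_unit_aux {V : ValuationSubring F} {Q f φ : F} (hQ : Q ≠ 0) {a b x : ℤ} {e n : ℕ}
    (hf : IsU V (f / Q ^ a)) (hφ : IsU V (φ * (Q ^ b)⁻¹)) (h : a * e + x + b * n = 0) :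
    IsU V (f ^ e * Q ^ x * φ ^ n) := by
  have h1 : f ^ e * Q ^ x * φ ^ n =
      (f / Q ^ a) ^ e * (φ * (Q ^ b)⁻¹) ^ n * Q ^ (a * e + x + b * n) := by
    rw [zpow_add₀ hQ, zpow_add₀ hQ, zpow_mul, zpow_mul, zpow_natCast, zpow_natCast, div_pow,
      mul_pow, inv_pow]
    have h2 : Q ^ a ≠ 0 := zpow_ne_zero _ hQ
    have h3 : Q ^ b ≠ 0 := zpow_ne_zero _ hQ
    field_simp
  rw [h1, h, zpow_zero, mul_one]
  exact (hf.pow e).mul (hφ.pow n)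

/-- **Leaf V3 (step (V)).**
PROOF. `x0, x1, x2` from `hG.eW0/eW1/eW2 f hf.ne_zero`.  `dvd_exponents`: `x0 + x1 - q x2 = n A`, `x2 + x1 - q x0 = n B`.
Then `(q+1)(x2 - x0) = n (B - A)` and `(q+1)(x1 - (q-1) x0) = n (q B + A)` (`linarith`/`ring`; cast `q - 1` with
`Nat.cast_sub`/write `q = r + 1`, it is convenient to `obtain ⟨r, rfl⟩ : ∃ r, q = r + 2`).
Let `e := (q+1)(q-1)`, `x := - e x0`, and `φ` from `Inj.exists_prescribed hG.vert hG.incomp (hG.arch hq)` with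
`y = ![1, q ^ (-(q B + A)), q ^ (-(q-1)(B - A))]`: `φ / y i ≡ 1`, so `φ = y i * unit` (`Cg.isU_left … isU_one`).
* `W 0`: `f ^ e q ^ x = (f / q ^ x0) ^ e` unit, `φ` unit.
* `W 2`: `f ^ e q ^ x φ ^ n = (f / q ^ x2) ^ e * q ^ (e (x2 - x0) - n (q-1)(B - A)) * (φ / y 2) ^ n` and the exponent is `0`.
* `W 1`: the `(q-1)`-th power of `f ^ e q ^ x φ ^ n` is
  `(f ^ (q-1) / q ^ x1) ^ e * q ^ (e x1 - (q-1) e x0 - (q-1) n (q B + A)) * (φ / y 1) ^ (n (q-1))`, exponent `0`; `IsU.of_pow`. -/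
theorem New.exists_unit (hG : D.Good O q) (hq : 2 ≤ q) {f : F} (hf : New D q n f) :
    ∃ (x : ℤ) (φ : F), φ ≠ 0 ∧ ∀ i, IsU (D.W i) (f ^ ((q + 1) * (q - 1)) * (q : F) ^ x * φ ^ n) := by
  have hQ : (q : F) ≠ 0 := hG.q_ne_zero
  obtain ⟨x0, h0⟩ := hG.eW0 f hf.ne_zero
  obtain ⟨x1, h1⟩ := hG.eW1 f hf.ne_zero
  obtain ⟨x2, h2⟩ := hG.eW2 f hf.ne_zero
  obtain ⟨⟨A, hA⟩, ⟨B, hB⟩⟩ := hf.dvd_exponents hG h0 h1 h2
  obtain ⟨m, hm⟩ : ∃ m, q - 1 = m := ⟨_, rfl⟩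
  rw [hm] at h1 ⊢
  have hq' : (q : ℤ) = m + 1 := by omega
  have hm0 : 0 < m := by omega
  rw [hq'] at hA hB
  obtain ⟨φ, hφ0, hφ⟩ := Inj.exists_prescribed hG.vert hG.incomp (hG.arch hq)
    (fun i => (q : F) ^ ((![0, -(((m : ℤ) + 1) * B + A), -((m : ℤ) * (B - A))] : Fin 3 → ℤ) i))
    (fun i => zpow_ne_zero _ hQ)
  have hφ' : ∀ i, IsU (D.W i) (φ * ((q : F) ^
      ((![0, -(((m : ℤ) + 1) * B + A), -((m : ℤ) * (B - A))] : Fin 3 → ℤ) i))⁻¹) :=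
    fun i => Cg.isU_left (hφ i) isU_one
  refine ⟨-(((q + 1) * m : ℕ) : ℤ) * x0, φ, hφ0, fun i => ?_⟩
  fin_cases i
  · refine New.exists_unit_aux hQ h0 (hφ' 0) ?_
    simp
    ring
  · apply IsU.of_pow hm0
    have e1 : (f ^ ((q + 1) * m) * (q : F) ^ (-(((q + 1) * m : ℕ) : ℤ) * x0) * φ ^ n) ^ m =
        (f ^ m) ^ ((q + 1) * m) * (q : F) ^ (-(((q + 1) * m : ℕ) : ℤ) * x0 * m) * (φ ^ m) ^ n := by
      rw [mul_pow, mul_pow, zpow_mul _ _ (m : ℤ), zpow_natCast, ← pow_mul, ← pow_mul, ← pow_mul,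
        ← pow_mul, mul_comm m ((q + 1) * m), mul_comm n m]
    show IsU (D.W 1) _
    rw [e1]
    have h3 : IsU (D.W 1) (φ ^ m * ((q : F) ^ (-(((m : ℤ) + 1) * B + A) * m))⁻¹) := by
      have h4 := (hφ' 1).pow m
      rw [mul_pow, inv_pow] at h4
      rw [zpow_mul, zpow_natCast]
      exact h4
    refine New.exists_unit_aux hQ h1 h3 ?_
    push_cast
    rw [hq']
    linear_combination ((m : ℤ) * (m + 1)) * hB + (m : ℤ) * hA
  · refine New.exists_unit_aux hQ h2 (hφ' 2) ?_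
    simp only [Matrix.cons_val]
    push_cast
    rw [hq']
    linear_combination (m : ℤ) * hB - (m : ℤ) * hA

end Fermat.Agent.S36R
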