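import Fermat.Agent.S36R.End.Final

/-!
# S36R / End, file `X`: the abstract form of Theorem X (what the top-level file consumes)
-/

set_option autoImplicit false
set_option linter.unusedSectionVars false

namespace Fermat.Agent.S36R

open AlgebraicCurve

variable {O K F FA : Type*} [CommRing O] [Field K] [Field F] [Field FA] [Algebra K F] [Algebra K FA]
  [Algebra O F] [Algebra O K] [IsScalarTower O K F] {D : Lvl K F FA} {q n : ℕ} {c : F}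

/-- `New` from "both norms are (constant) * (`n`-th power)" and `Kˣ = q ^ ℤ * (Kˣ) ^ n`. -/
theorem new_of_const (hn : 0 < n)
    (hKn : ∀ a : K, a ≠ 0 → ∃ (x : ℤ) (b : K), b ≠ 0 ∧ a = (q : K) ^ x * b ^ n)
    {f : F} (hf : f ≠ 0) (hA : ∃ (a : K) (y : FA), D.NA f = algebraMap K FA a * y ^ n)
    (hB : ∃ (a : K) (y : FA), D.NB f = algebraMap K FA a * y ^ n) : New D q n f := by
  have key : ∀ N : F →* FA, (∃ (a : K) (y : FA), N f = algebraMap K FA a * y ^ n) →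
      IsQPow q n (N f) := by
    rintro N ⟨a, y, h⟩
    have h0 : N f ≠ 0 := hom_ne_zero N hf
    have ha : a ≠ 0 := by
      rintro rfl
      rw [map_zero, zero_mul] at h
      exact h0 h
    have hy : y ≠ 0 := by
      rintro rfl
      rw [zero_pow hn.ne', mul_zero] at h
      exact h0 h
    exact isQPow_of_const hKn ha hy h
  exact ⟨hf, key D.NA hA, key D.NB hB⟩

/-- **Abstract Theorem X** (route R).  `d = ((q+1)(q-1))²`. -/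
theorem abstract_X [IsNoetherianRing O] (hq : q.Prime) (hqn : n.Coprime q) (hn : 0 < n)
    (hnO : IsUnit (n : O)) (hD : D.Good O q) (hc : c ≠ 0)
    {R₀ R₁ : Subring F} (h₀ : D.ChartOK O q c R₀) (h₁ : D.ChartOK O q c⁻¹ R₁) (hT : D.TripleOK R₀)
    (hP₀ : ∀ (𝔫 : Ideal R₀) [𝔫.IsMaximal], (q : R₀) ∈ 𝔫 → D.PointOK R₀ 𝔫)
    (hP₁ : ∀ (𝔫 : Ideal R₁) [𝔫.IsMaximal], (q : R₁) ∈ 𝔫 → (∀ x : R₁, (x : F) = c⁻¹ → x ∈ 𝔫) →
      D.PointOK R₁ 𝔫 ∧ ∃! i, Inj.Thru D.W 𝔫 i)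
    (sh₀ : ∀ z ∈ R₀, ∃ k : ℕ, c⁻¹ ^ k * z ∈ R₁) (sh₁ : ∀ z ∈ R₁, ∃ k : ℕ, c ^ k * z ∈ R₀)
    (hconst : ∀ z ∈ R₀, z ∈ R₁ → ∃ a : K, z = algebraMap K F a)
    (hK : ∀ a : K, ∃ (k : ℕ) (u : O), (q : K) ^ k * a = algebraMap O K u)
    (hKn : ∀ a : K, a ≠ 0 → ∃ (x : ℤ) (b : K), b ≠ 0 ∧ a = (q : K) ^ x * b ^ n)
    {ζ : O} (hζ : IsPrimitiveRoot (algebraMap O F ζ) n)
    {f : F} (hf : f ≠ 0) (hord : ∀ P : Place K F, (n : ℤ) ∣ P.ord f)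
    (hA : ∃ (a : K) (y : FA), D.NA f = algebraMap K FA a * y ^ n)
    (hB : ∃ (a : K) (y : FA), D.NB f = algebraMap K FA a * y ^ n) :
    ∃ (a : K) (Ψ : F), a ≠ 0 ∧ Ψ ≠ 0 ∧
      f ^ ((q + 1) * (q - 1) * ((q + 1) * (q - 1))) = algebraMap K F a * Ψ ^ n :=
  (new_of_const hn hKn hf hA hB).main hq hqn hn hnO hD hc h₀ h₁ hT hP₀ hP₁ sh₀ sh₁ hconst hK hζ hord

end Fermat.Agent.S36R
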